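import Fermat.Agent.FunctionField.Degree

/-!
# Riemann–Roch spaces are finite dimensional; every function has as many zeros as poles
-/

set_option autoImplicit false

noncomputable section

open AlgebraicCurve Polynomial IntermediateField

namespace FLTAgent.FunctionField

variable {K F : Type*} [Field K] [Field F] [Algebra K F]

theorem mem_riemannRochSpace {D : Divisor K F} {f : F} :
    f ∈ riemannRochSpace D ↔ ∀ v, OrdGe v (-(D v)) f := by
  simp [riemannRochSpace, OrdGe]

theorem riemannRochSpace_mono {D E : Divisor K F} (h : D ≤ E) :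
    riemannRochSpace D ≤ riemannRochSpace E := fun f hf => by
  rw [mem_riemannRochSpace] at hf ⊢
  exact fun v => (hf v).mono (neg_le_neg (h v))

theorem riemannRochSpace_neg_single_eq_bot [IsFunctionField K F] (v : Place K F) :
    riemannRochSpace (Finsupp.single v (-1 : ℤ)) = ⊥ := by
  classical
  refine (Submodule.eq_bot_iff _).2 fun f hf => by_contra fun hf0 => ?_
  rw [mem_riemannRochSpace] at hf
  have hv := (hf v).le_ord hf0
  rw [Finsupp.single_eq_same] at hv
  obtain ⟨w, hw⟩ := exists_place_ord_pos (K := K) (x := f⁻¹)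
    (transcendental_of_ord_ne_zero (v := v) (by rw [v.ord_inv]; omega))
  have hwf := (hf w).le_ord hf0
  rw [w.ord_inv] at hw
  rcases eq_or_ne w v with rfl | hne
  · omega
  · rw [Finsupp.single_eq_of_ne hne] at hwf
    omega

/-- Scaling an element into the valuation ring of `v` and taking its residue. -/
def residueShift (v : Place K F) (s : F) :
    (Submodule.comap (LinearMap.mulRight K s)
      (Subalgebra.toSubmodule ⟨v.toValuationSubring.toSubring.toSubsemiring, v.algebraMap_mem'⟩))
      →ₗ[K] v.ResidueField where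
  toFun f := IsLocalRing.residue v.toValuationSubring ⟨(f : F) * s, f.2⟩
  map_add' f g := by
    rw [← map_add]
    exact congrArg _ (Subtype.ext (add_mul _ _ _))
  map_smul' c f := by
    rw [RingHom.id_apply, Algebra.smul_def, ← residue_algebraMap, ← map_mul]
    refine congrArg _ (Subtype.ext ?_)
    simp [Algebra.smul_def, mul_assoc]

theorem mem_comap_mulRight {v : Place K F} {s f : F} :
    f ∈ Submodule.comap (LinearMap.mulRight K s)
      (Subalgebra.toSubmodule ⟨v.toValuationSubring.toSubring.toSubsemiring, v.algebraMap_mem'⟩)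
      ↔ OrdGe v 0 (f * s) :=
  mem_iff_ordGe_zero

theorem ordGe_mul_iff {v : Place K F} {s f : F} (hs : s ≠ 0) {n : ℤ} :
    OrdGe v n (f * s) ↔ OrdGe v (n - v.ord s) f := by
  rcases eq_or_ne f 0 with rfl | hf
  · simp
  rw [ordGe_iff_of_ne_zero (mul_ne_zero hf hs), ordGe_iff_of_ne_zero hf, v.ord_mul hf hs]
  omega

section Step

variable (D : Divisor K F) (v : Place K F) (s : F)

theorem riemannRochSpace_add_single_le_comap (hs : s ≠ 0) (hord : v.ord s = D v + 1) :
    riemannRochSpace (D + Finsupp.single v 1) ≤ Submodule.comap (LinearMap.mulRight K s)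
      (Subalgebra.toSubmodule ⟨v.toValuationSubring.toSubring.toSubsemiring, v.algebraMap_mem'⟩) := by
  classical
  intro f hf
  rw [mem_comap_mulRight, ordGe_mul_iff hs]
  exact ((mem_riemannRochSpace.1 hf) v).mono (by simp [hord])

/-- The residue map on `L(D + v)`. -/
def stepMap (hs : s ≠ 0) (hord : v.ord s = D v + 1) :
    riemannRochSpace (D + Finsupp.single v 1) →ₗ[K] v.ResidueField :=
  (residueShift v s).comp
    (Submodule.inclusion (riemannRochSpace_add_single_le_comap D v s hs hord))

theorem ker_stepMap (hs : s ≠ 0) (hord : v.ord s = D v + 1) :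
    LinearMap.ker (stepMap D v s hs hord)
      = (riemannRochSpace D).comap (riemannRochSpace (D + Finsupp.single v 1)).subtype := by
  classical
  ext ⟨f, hf⟩
  rw [LinearMap.mem_ker, Submodule.mem_comap, Submodule.coe_subtype, mem_riemannRochSpace]
  show IsLocalRing.residue _ _ = 0 ↔ _
  rw [residue_eq_zero_iff]
  show OrdGe v 1 (f * s) ↔ _
  rw [ordGe_mul_iff hs, hord]
  refine ⟨fun h w => ?_, fun h => (h v).mono (by omega)⟩
  rcases eq_or_ne w v with rfl | hne
  · exact h.mono (by omega)
  · simpa [Finsupp.single_eq_of_ne hne] using (mem_riemannRochSpace.1 hf) w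

end Step

theorem degree_nonneg {E : Divisor K F} (hE : 0 ≤ E) : 0 ≤ Divisor.degree E := by
  rw [degree_eq_sum]
  exact Finset.sum_nonneg fun v _ => mul_nonneg (hE v) (Int.natCast_nonneg _)

variable [IsFunctionField K F]

theorem finite_and_finrank_add_single (D : Divisor K F) (v : Place K F)
    [Module.Finite K (riemannRochSpace D)] :
    Module.Finite K (riemannRochSpace (D + Finsupp.single v 1)) ∧
      Module.finrank K (riemannRochSpace (D + Finsupp.single v 1))
        ≤ Module.finrank K (riemannRochSpace D) + v.deg := by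
  classical
  obtain ⟨s, hs, hord⟩ := exists_ord_eq v (D v + 1)
  have hle : riemannRochSpace D ≤ riemannRochSpace (D + Finsupp.single v 1) :=
    riemannRochSpace_mono (le_add_of_nonneg_right (Finsupp.single_nonneg.2 zero_le_one))
  have := finite_residueField v
  let e := Submodule.comapSubtypeEquivOfLe hle
  have hk : Module.Finite K (LinearMap.ker (stepMap D v s hs hord)) :=
    ker_stepMap D v s hs hord ▸ Module.Finite.equiv e.symm
  have hq : Module.Finite K (_ ⧸ LinearMap.ker (stepMap D v s hs hord)) :=
    Module.Finite.equiv (LinearMap.quotKerEquivRange (stepMap D v s hs hord)).symm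
  have hfin : Module.Finite K (riemannRochSpace (D + Finsupp.single v 1)) :=
    Module.Finite.of_submodule_quotient (LinearMap.ker (stepMap D v s hs hord))
  refine ⟨hfin, ?_⟩
  rw [← LinearMap.finrank_range_add_finrank_ker (stepMap D v s hs hord), ker_stepMap,
    e.finrank_eq, add_comm]
  exact Nat.add_le_add_left (Submodule.finrank_le _) _

theorem finite_and_finrank_add (E : Divisor K F) (hE : 0 ≤ E) :
    ∀ D : Divisor K F, Module.Finite K (riemannRochSpace D) →
      Module.Finite K (riemannRochSpace (D + E)) ∧
        (Module.finrank K (riemannRochSpace (D + E)) : ℤ)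
          ≤ Module.finrank K (riemannRochSpace D) + Divisor.degree E := by
  classical
  induction E using Finsupp.induction with
  | zero => intro D hD; rw [add_zero]; exact ⟨hD, by simp⟩
  | single_add w n E' hw hn ih =>
    intro D hD
    have hn0 : 0 ≤ n := by simpa [Finsupp.notMem_support_iff.1 hw] using hE w
    have hE' : 0 ≤ E' := fun u => by
      rcases eq_or_ne u w with rfl | hne
      · simp [Finsupp.notMem_support_iff.1 hw]
      · simpa [Finsupp.single_eq_of_ne hne] using hE u
    obtain ⟨n, rfl⟩ := Int.eq_ofNat_of_zero_le hn0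
    have key : ∀ k : ℕ, Module.Finite K (riemannRochSpace (D + Finsupp.single w (k : ℤ))) ∧
        (Module.finrank K (riemannRochSpace (D + Finsupp.single w (k : ℤ))) : ℤ)
          ≤ Module.finrank K (riemannRochSpace D) + k * w.deg := by
      intro k
      induction k with
      | zero => rw [Nat.cast_zero, Finsupp.single_zero, add_zero]; exact ⟨hD, by simp⟩
      | succ k ihk =>
        obtain ⟨h1, h2⟩ := ihk
        have h3 := finite_and_finrank_add_single (D + Finsupp.single w (k : ℤ)) w
        rw [add_assoc, ← Finsupp.single_add, ← Nat.cast_add_one] at h3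
        refine ⟨h3.1, ?_⟩
        have := h3.2
        push_cast at this ⊢
        rw [add_mul, one_mul]
        omega
    obtain ⟨h1, h2⟩ := ih hE' _ (key n).1
    rw [← add_assoc]
    refine ⟨h1, h2.trans ?_⟩
    rw [map_add, Divisor.degree_single]
    have := (key n).2
    omega

theorem finite_riemannRochSpace (D : Divisor K F) : Module.Finite K (riemannRochSpace D) := by
  classical
  obtain ⟨v⟩ := exists_place (K := K) (F := F)
  set E : Divisor K F := (D + Finsupp.single v 1).mapRange (fun n => max n 0) (max_self 0)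
    with hE
  have h0 : Module.Finite K (riemannRochSpace (Finsupp.single v (-1 : ℤ))) := by
    rw [riemannRochSpace_neg_single_eq_bot]
    infer_instance
  have h := (finite_and_finrank_add E (fun u => by simp [hE]) _ h0).1
  exact Submodule.finiteDimensional_of_le (riemannRochSpace_mono
    (E := Finsupp.single v (-1 : ℤ) + E) fun u => by
      rcases eq_or_ne u v with rfl | hne
      · simp [hE]; omega
      · simp [hE, Finsupp.single_eq_of_ne hne])

instance (D : Divisor K F) : Module.Finite K (riemannRochSpace D) := finite_riemannRochSpace D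

theorem finrank_riemannRochSpace_add_le (D : Divisor K F) {E : Divisor K F} (hE : 0 ≤ E) :
    (Module.finrank K (riemannRochSpace (D + E)) : ℤ)
      ≤ Module.finrank K (riemannRochSpace D) + Divisor.degree E :=
  (finite_and_finrank_add E hE D inferInstance).2

/-- The fundamental lower bound on `L(l·B + C)`, `B` the divisor of poles of `x`. -/
theorem exists_lower_bound {x : F} (hx : Transcendental K x) :
    ∃ C : Divisor K F, 0 ≤ C ∧ ∀ l : ℕ, (l + 1) * Module.finrank K⟮x⟯ F
      ≤ Module.finrank K (riemannRochSpace (l • zeroDivisor (K := K) x⁻¹ + C)) := by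
  classical
  have := finiteDimensional_adjoin_of_transcendental hx
  let b := Module.finBasis K⟮x⟯ F
  refine ⟨∑ j, zeroDivisor (K := K) (b j)⁻¹,
    Finset.sum_nonneg fun j _ => zeroDivisor_nonneg _, fun l => ?_⟩
  set E := l • zeroDivisor (K := K) x⁻¹ + ∑ j, zeroDivisor (K := K) (b j)⁻¹ with hE
  have hmem : ∀ (i : Fin (l + 1)) j, x ^ (i : ℕ) * b j ∈ riemannRochSpace E := by
    intro i j
    rw [mem_riemannRochSpace]
    intro v
    have h1 : OrdGe v (-((l : ℤ) * max (-v.ord x) 0)) (x ^ (i : ℕ)) := by
      refine ordGe_of_le_ord ?_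
      rw [ord_pow]
      have hi : (i : ℤ) ≤ l := by exact_mod_cast Nat.lt_succ_iff.1 i.2
      have h3 := mul_le_mul_of_nonneg_right hi (le_max_right (-v.ord x) 0)
      have h4 := mul_le_mul_of_nonneg_left (le_max_left (-v.ord x) 0) (Int.natCast_nonneg (i : ℕ))
      nlinarith
    refine (h1.mul (ordGe_ord (v := v) (b j))).mono ?_
    have h5 : max (-v.ord (b j)) 0 ≤ (∑ j, zeroDivisor (K := K) (b j)⁻¹) v := by
      rw [Finset.sum_apply']
      refine le_of_eq_of_le ?_ (Finset.single_le_sum
        (fun k _ => by simp) (Finset.mem_univ j))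
      simp [v.ord_inv]
    have h6 : (l • zeroDivisor (K := K) x⁻¹) v = (l : ℤ) * max (-v.ord x) 0 := by
      simp [v.ord_inv]
    rw [hE, Finsupp.add_apply, h6]
    have := le_max_left (-v.ord (b j)) 0
    omega
  let u : Fin (l + 1) × Fin (Module.finrank K⟮x⟯ F) → riemannRochSpace E :=
    fun p => ⟨x ^ (p.1 : ℕ) * b p.2, hmem p.1 p.2⟩
  have hu : LinearIndependent K u := by
    refine LinearIndependent.of_comp (riemannRochSpace E).subtype ?_
    rw [Fintype.linearIndependent_iff]
    intro c hc p
    set g : Fin (Module.finrank K⟮x⟯ F) → K⟮x⟯ := fun j =>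
      ∑ i : Fin (l + 1), c (i, j) • (AdjoinSimple.gen K x) ^ (i : ℕ) with hg
    have hg0 : ∑ j, g j • b j = 0 := by
      rw [← hc, Fintype.sum_prod_type, Finset.sum_comm]
      refine Finset.sum_congr rfl fun j _ => ?_
      rw [hg, Finset.sum_smul]
      refine Finset.sum_congr rfl fun i _ => ?_
      rw [Function.comp_apply, Submodule.coe_subtype, smul_assoc]
      rfl
    have h0 := congrArg (fun z : K⟮x⟯ => (z : F))
      (Fintype.linearIndependent_iff.1 b.linearIndependent g hg0 p.2)
    simp only [hg, AddSubmonoidClass.coe_finsetSum] at h0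
    have h1 : aeval x (∑ i : Fin (l + 1), Polynomial.monomial (i : ℕ) (c (i, p.2))) = 0 := by
      refine Eq.trans ?_ h0
      rw [map_sum]
      refine Finset.sum_congr rfl fun i _ => ?_
      simp [aeval_monomial, Algebra.smul_def]
    have h2 := congrArg (fun q : K[X] => q.coeff (p.1 : ℕ))
      ((transcendental_iff.1 hx) _ h1)
    simp only [finsetSum_coeff, coeff_monomial, coeff_zero] at h2
    rw [Finset.sum_eq_single p.1] at h2
    · simpa using h2
    · exact fun i _ hi => if_neg fun h => hi (Fin.ext h)
    · simp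
  simpa using hu.fintype_card_le_finrank

/-- The degree of the divisor of zeros of `x` is `[F : K⟮x⟯]`. -/
theorem degree_zeroDivisor {x : F} (hx : Transcendental K x) :
    Divisor.degree (zeroDivisor (K := K) x) = Module.finrank K⟮x⟯ F := by
  refine le_antisymm (degree_zeroDivisor_le hx) ?_
  have hxi : Transcendental K x⁻¹ := fun h => hx (by simpa using h.inv)
  obtain ⟨C, hC, hb⟩ := exists_lower_bound hxi
  rw [inv_inv] at hb
  have heq : Module.finrank K⟮x⁻¹⟯ F = Module.finrank K⟮x⟯ F := by
    have : K⟮x⁻¹⟯ = K⟮x⟯ := le_antisymm (adjoin_simple_le_iff.2 (inv_mem (mem_adjoin_simple_self K x)))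
      (adjoin_simple_le_iff.2 (by simpa using inv_mem (mem_adjoin_simple_self K x⁻¹)))
    rw [this]
  rw [heq] at hb
  set d := Divisor.degree (zeroDivisor (K := K) x) with hd
  set m := Module.finrank K (riemannRochSpace (0 : Divisor K F))
  have hup : ∀ l : ℕ, ((l : ℤ) + 1) * (Module.finrank K⟮x⟯ F : ℤ)
      ≤ m + l * d + Divisor.degree C := by
    intro l
    have h1 := finrank_riemannRochSpace_add_le 0
      (E := l • zeroDivisor (K := K) x + C)
      (add_nonneg (nsmul_nonneg (zeroDivisor_nonneg x) l) hC)
    rw [zero_add, map_add, map_nsmul, nsmul_eq_mul] at h1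
    have h2 : (((l + 1) * Module.finrank K⟮x⟯ F : ℕ) : ℤ)
        ≤ (Module.finrank K (riemannRochSpace (l • zeroDivisor (K := K) x + C)) : ℤ) :=
      Nat.cast_le.2 (hb l)
    push_cast at h2
    rw [← hd] at h1
    linarith
  by_contra hlt
  have hdC := degree_nonneg hC
  have h3 := hup ((m : ℤ) + Divisor.degree C).toNat
  rw [Int.toNat_of_nonneg (by omega)] at h3
  have h4 : ((m : ℤ) + Divisor.degree C) * (d + 1)
      ≤ ((m : ℤ) + Divisor.degree C) * (Module.finrank K⟮x⟯ F : ℤ) :=
    mul_le_mul_of_nonneg_left (by omega) (by omega)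
  have h5 : 0 < Module.finrank K⟮x⟯ F :=
    have := finiteDimensional_adjoin_of_transcendental hx
    Module.finrank_pos
  nlinarith

theorem degree_divisorOf (f : F) : Divisor.degree (divisorOf (K := K) f) = 0 := by
  by_cases hf : IsAlgebraic K f
  · have : divisorOf (K := K) f = 0 := by
      ext v
      simp [ord_eq_zero_of_isAlgebraic hf]
    rw [this, map_zero]
  have hfi : Transcendental K f⁻¹ := fun h => hf (by simpa using h.inv)
  have heq : K⟮f⁻¹⟯ = K⟮f⟯ := le_antisymm (adjoin_simple_le_iff.2 (inv_mem (mem_adjoin_simple_self K f)))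
    (adjoin_simple_le_iff.2 (by simpa using inv_mem (mem_adjoin_simple_self K f⁻¹)))
  rw [← zeroDivisor_sub_zeroDivisor_inv, map_sub, degree_zeroDivisor hf,
    degree_zeroDivisor hfi, heq, sub_self]

instance : HasPrincipalDivisors K F :=
  ⟨fun f _ => ⟨divisorOf f, fun _ => rfl, degree_divisorOf f⟩⟩

theorem degree_eq_zero_of_apply_eq_ord {f : F} {D : Divisor K F} (hD : ∀ v, D v = v.ord f) :
    Divisor.degree D = 0 := by
  rw [show D = divisorOf f from Finsupp.ext hD, degree_divisorOf]

end FLTAgent.FunctionField
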