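import Fermat.Agent.FunctionField.Riemann

/-!
# The Riemann–Roch theorem via repartitions
-/

set_option autoImplicit false

noncomputable section

open AlgebraicCurve Polynomial IntermediateField

namespace FLTAgent.FunctionField

variable {K F : Type*} [Field K] [Field F] [Algebra K F]

theorem mem_repartitionsOf {D : Divisor K F} {α : ↥(repartitions K F)} :
    α ∈ repartitionsOf D ↔ ∀ v, OrdGe v (-(D v)) ((α : Place K F → F) v) := by
  simp [repartitionsOf, OrdGe]

theorem not_adicValuation_le_one_iff_not_ordGe {v : Place K F} {f : F} :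
    ¬ v.adicValuation f ≤ 1 ↔ ¬ OrdGe v 0 f := by simp [OrdGe]

variable [IsFunctionField K F]

/-- Repartitions are exactly the almost everywhere integral families. -/
theorem finite_setOf_not_ordGe_of_mem {α : Place K F → F} (h : α ∈ repartitions K F) :
    {v : Place K F | ¬ OrdGe v 0 (α v)}.Finite := by
  induction h using Algebra.adjoin_induction with
  | mem α hα => simpa only [Set.mem_ofPred_eq, not_adicValuation_le_one_iff_not_ordGe] using hα
  | algebraMap f =>
    refine (finite_setOf_ord_ne_zero (K := K) f).subset fun v hv => ?_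
    rw [Set.mem_ofPred_eq] at hv ⊢
    intro h0
    exact hv (ordGe_of_le_ord (by simp [h0]))
  | add α β _ _ ha hb =>
    refine (ha.union hb).subset fun v hv => ?_
    by_contra hc
    simp only [Set.mem_union, Set.mem_ofPred_eq, not_or, not_not] at hc
    exact hv (hc.1.add hc.2)
  | mul α β _ _ ha hb =>
    refine (ha.union hb).subset fun v hv => ?_
    by_contra hc
    simp only [Set.mem_union, Set.mem_ofPred_eq, not_or, not_not] at hc
    exact hv (by simpa using hc.1.mul hc.2)

theorem exists_divisor_ge (D₀ : Divisor K F) (α : ↥(repartitions K F)) :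
    ∃ D : Divisor K F, D₀ ≤ D ∧ α ∈ repartitionsOf D := by
  classical
  have hfin : {v : Place K F | ¬ OrdGe v (-(D₀ v)) ((α : Place K F → F) v)}.Finite := by
    refine ((finite_setOf_not_ordGe_of_mem α.2).union D₀.support.finite_toSet).subset fun v hv => ?_
    by_contra hc
    simp only [Set.mem_union, Set.mem_ofPred_eq, not_or, not_not, Finset.mem_coe,
      Finsupp.mem_support_iff] at hc
    exact hv (by rw [hc.2, neg_zero]; exact hc.1)
  set g : Place K F → ℤ := fun v =>
    if v ∈ hfin.toFinset then max 0 (-v.ord ((α : Place K F → F) v) - D₀ v) else 0 with hg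
  refine ⟨D₀ + Finsupp.onFinset hfin.toFinset g (fun v hv => by
      by_contra h
      exact hv (by simp only [hg]; rw [if_neg h])),
    le_add_of_nonneg_right (fun v => by
      rw [Finsupp.onFinset_apply, hg]; dsimp; split_ifs <;> simp), mem_repartitionsOf.2 fun v => ?_⟩
  rw [Finsupp.add_apply, Finsupp.onFinset_apply, hg]
  dsimp only
  split_ifs with hv
  · exact ordGe_of_le_ord (by omega)
  · rw [Set.Finite.mem_toFinset, Set.mem_ofPred_eq, not_not] at hv
    simpa using hv

section Step

variable (D : Divisor K F) (v : Place K F)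

omit [IsFunctionField K F] in
theorem exists_shift : ∃ s : F, s ≠ 0 ∧ v.ord s = D v + 1 := exists_ord_eq v _

/-- The inclusion of a single entry. -/
def singleRepartition (a : F) : ↥(repartitions K F) := by
  classical
  exact ⟨Pi.single v a, mem_repartitions_of_finite ((Set.finite_singleton v).subset fun u hu => by
    by_contra h
    simp only [Set.mem_ofPred_eq] at hu
    rw [Pi.single_eq_of_ne (by simpa using h), map_zero] at hu
    exact hu zero_le_one)⟩

variable {D v}

/-- The entry at `v` of an element of `A(D + v)`. -/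
def repEntry (D : Divisor K F) (v : Place K F) (s : F) (hs : s ≠ 0) (hord : v.ord s = D v + 1) :
    repartitionsOf (D + Finsupp.single v 1) →ₗ[K] Submodule.comap (LinearMap.mulRight K s)
      (Subalgebra.toSubmodule ⟨v.toValuationSubring.toSubring.toSubsemiring, v.algebraMap_mem'⟩) where
  toFun α := ⟨((α : ↥(repartitions K F)) : Place K F → F) v, by
    classical
    rw [mem_comap_mulRight, ordGe_mul_iff hs]
    exact ((mem_repartitionsOf.1 α.2) v).mono (by simp [hord])⟩
  map_add' α β := by apply Subtype.ext; rfl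
  map_smul' c α := by apply Subtype.ext; rfl

/-- The residue map on `A(D + v)`. -/
def repStep {s : F} (hs : s ≠ 0) (hord : v.ord s = D v + 1) :
    repartitionsOf (D + Finsupp.single v 1) →ₗ[K] v.ResidueField :=
  (residueShift v s).comp (repEntry D v s hs hord)

omit [IsFunctionField K F] in
theorem repStep_apply {s : F} (hs : s ≠ 0) (hord : v.ord s = D v + 1)
    (α : repartitionsOf (D + Finsupp.single v 1)) :
    repStep hs hord α = IsLocalRing.residue v.toValuationSubring
      ⟨((α : ↥(repartitions K F)) : Place K F → F) v * s, (repEntry D v s hs hord α).2⟩ := rfl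

omit [IsFunctionField K F] in
theorem repStep_eq_zero_iff {s : F} (hs : s ≠ 0) (hord : v.ord s = D v + 1)
    (α : repartitionsOf (D + Finsupp.single v 1)) :
    repStep hs hord α = 0 ↔ (α : ↥(repartitions K F)) ∈ repartitionsOf D := by
  classical
  rw [repStep_apply, residue_eq_zero_iff]
  show OrdGe v 1 (((α : ↥(repartitions K F)) : Place K F → F) v * s) ↔ _
  rw [ordGe_mul_iff hs, hord, mem_repartitionsOf]
  refine ⟨fun h w => ?_, fun h => (h v).mono (by omega)⟩
  rcases eq_or_ne w v with rfl | hne
  · exact h.mono (by omega)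
  · simpa [Finsupp.single_eq_of_ne hne] using (mem_repartitionsOf.1 α.2) w

omit [IsFunctionField K F] in
theorem repStep_surjective {s : F} (hs : s ≠ 0) (hord : v.ord s = D v + 1) :
    Function.Surjective (repStep hs hord) := by
  classical
  intro r
  obtain ⟨a, rfl⟩ := IsLocalRing.residue_surjective r
  have hmem : singleRepartition v ((a : F) * s⁻¹) ∈ repartitionsOf (D + Finsupp.single v 1) := by
    refine mem_repartitionsOf.2 fun w => ?_
    show OrdGe w _ ((Pi.single v ((a : F) * s⁻¹) : Place K F → F) w)
    rcases eq_or_ne w v with rfl | hne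
    · rw [Pi.single_eq_same, ordGe_mul_iff (inv_ne_zero hs), w.ord_inv, sub_neg_eq_add, hord]
      exact (mem_iff_ordGe_zero.1 a.2).mono (by simp)
    · rw [Pi.single_eq_of_ne hne]
      exact ordGe_zero _
  refine ⟨⟨_, hmem⟩, ?_⟩
  rw [repStep_apply]
  refine congrArg (IsLocalRing.residue _) (Subtype.ext ?_)
  show (Pi.single v ((a : F) * s⁻¹) : Place K F → F) v * s = a
  rw [Pi.single_eq_same, inv_mul_cancel_right₀ hs]

end Step

theorem repartitionsOf_sup_eq_of_ell_eq {D : Divisor K F} {v : Place K F}
    (h : ell (D + Finsupp.single v 1) = ell D + v.deg) :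
    repartitionsOf (D + Finsupp.single v 1) ≤ repartitionsOf D ⊔ principalRepartitions K F := by
  classical
  obtain ⟨s, hs, hord⟩ := exists_shift D v
  have hle : riemannRochSpace D ≤ riemannRochSpace (D + Finsupp.single v 1) :=
    riemannRochSpace_mono (le_add_of_nonneg_right (Finsupp.single_nonneg.2 zero_le_one))
  have := finite_residueField v
  have hsurj : LinearMap.range (stepMap D v s hs hord) = ⊤ := by
    refine Submodule.eq_top_of_finrank_eq ?_
    have h1 := LinearMap.finrank_range_add_finrank_ker (stepMap D v s hs hord)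
    rw [ker_stepMap, (Submodule.comapSubtypeEquivOfLe hle).finrank_eq] at h1
    show _ = v.deg
    rw [ell, ell] at h
    omega
  intro α hα
  obtain ⟨⟨f, hf⟩, hfr⟩ := LinearMap.range_eq_top.1 hsurj (repStep hs hord ⟨α, hα⟩)
  set β : ↥(repartitions K F) := algebraMap F _ f with hβ
  have hβmem : β ∈ repartitionsOf (D + Finsupp.single v 1) :=
    mem_repartitionsOf.2 fun w => mem_riemannRochSpace.1 hf w
  have hβP : β ∈ principalRepartitions K F := mem_principalRepartitions_iff.2 ⟨f, rfl⟩
  rw [show α = (α - β) + β from (sub_add_cancel α β).symm]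
  refine Submodule.add_mem_sup ?_ hβP
  let a : repartitionsOf (D + Finsupp.single v 1) := ⟨α, hα⟩
  let b : repartitionsOf (D + Finsupp.single v 1) := ⟨β, hβmem⟩
  have hb : repStep hs hord b = stepMap D v s hs hord ⟨f, hf⟩ := by
    rw [repStep_apply]
    rfl
  have h0 : repStep hs hord (a - b) = 0 := by
    rw [LinearMap.map_sub (repStep hs hord) a b, hb, hfr, sub_self]
  have h1 := (repStep_eq_zero_iff hs hord (a - b)).1 h0
  rw [Submodule.coe_sub] at h1
  exact h1

theorem degree_sub_ell_mono {D E : Divisor K F} (h : D ≤ E) :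
    Divisor.degree D - ell D ≤ Divisor.degree E - ell E := by
  have := ell_le_ell_add_degree_sub h
  omega

/-- A divisor `D₀` with `A(D₀) + F` everything. -/
theorem exists_forall_sup_eq_top : ∃ D₀ : Divisor K F, ∀ D : Divisor K F, D₀ ≤ D →
    repartitionsOf D ⊔ principalRepartitions K F = ⊤ := by
  classical
  obtain ⟨γ, hγ⟩ := exists_bound_degree_sub_ell (K := K) (F := F)
  obtain ⟨m, ⟨D₀, hD₀⟩, hmax⟩ := Int.exists_greatest_of_bdd
    (P := fun m => ∃ D : Divisor K F, Divisor.degree D - ell D = m)
    ⟨γ, fun m ⟨D, hD⟩ => hD ▸ hγ D⟩ ⟨_, 0, rfl⟩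
  refine ⟨D₀, ?_⟩
  have hstep : ∀ D, D₀ ≤ D → ∀ v : Place K F,
      repartitionsOf (D + Finsupp.single v 1) ≤ repartitionsOf D ⊔ principalRepartitions K F := by
    intro D hD v
    refine repartitionsOf_sup_eq_of_ell_eq ?_
    have h1 := hmax _ ⟨D + Finsupp.single v 1, rfl⟩
    have h2 := degree_sub_ell_mono hD
    have h3 : D ≤ D + Finsupp.single v (1 : ℤ) :=
      le_add_of_nonneg_right (Finsupp.single_nonneg.2 zero_le_one)
    have h4 := ell_le_ell_add_degree_sub h3
    rw [map_add, Divisor.degree_single, one_mul] at h1 h4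
    omega
  have hall : ∀ E : Divisor K F, 0 ≤ E → ∀ D, D₀ ≤ D →
      repartitionsOf (D + E) ≤ repartitionsOf D ⊔ principalRepartitions K F := by
    intro E
    induction E using Finsupp.induction with
    | zero => intro _ D _; rw [add_zero]; exact le_sup_left
    | single_add w n E' hw hn ih =>
      intro hE D hD
      have hn0 : 0 ≤ n := by simpa [Finsupp.notMem_support_iff.1 hw] using hE w
      have hE' : 0 ≤ E' := fun u => by
        rcases eq_or_ne u w with rfl | hne
        · simp [Finsupp.notMem_support_iff.1 hw]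
        · simpa [Finsupp.single_eq_of_ne hne] using hE u
      obtain ⟨k, rfl⟩ := Int.eq_ofNat_of_zero_le hn0
      have key : ∀ k : ℕ, repartitionsOf (D + Finsupp.single w (k : ℤ))
          ≤ repartitionsOf D ⊔ principalRepartitions K F := by
        intro k
        induction k with
        | zero => rw [Nat.cast_zero, Finsupp.single_zero, add_zero]; exact le_sup_left
        | succ k ihk =>
          rw [Nat.cast_add_one, Finsupp.single_add, ← add_assoc]
          exact (hstep _ (hD.trans (le_add_of_nonneg_right
            (Finsupp.single_nonneg.2 (Int.natCast_nonneg _)))) w).trans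
              (sup_le ihk le_sup_right)
      rw [← add_assoc]
      exact (ih hE' _ (hD.trans (le_add_of_nonneg_right
        (Finsupp.single_nonneg.2 (Int.natCast_nonneg _))))).trans (sup_le (key k) le_sup_right)
  intro D hD
  rw [eq_top_iff]
  intro α _
  obtain ⟨E, hDE, hα⟩ := exists_divisor_ge D α
  have h := hall (E - D) (sub_nonneg.2 hDE) D hD
  rw [add_sub_cancel] at h
  exact h hα

section H1Step

variable (D : Divisor K F) (v : Place K F)

omit [IsFunctionField K F] in
theorem sup_le_sup_add_single :
    repartitionsOf D ⊔ principalRepartitions K F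
      ≤ repartitionsOf (D + Finsupp.single v 1) ⊔ principalRepartitions K F :=
  sup_le_sup_right (repartitionsOf_mono
    (le_add_of_nonneg_right (Finsupp.single_nonneg.2 zero_le_one))) _

theorem finite_H1_and_finrank_step
    (hfin : Module.Finite K (H1 (D + Finsupp.single v 1))) :
    Module.Finite K (H1 D) ∧ (Module.finrank K (H1 D) : ℤ)
      = Module.finrank K (H1 (D + Finsupp.single v 1)) + v.deg
        - (ell (D + Finsupp.single v 1) - ell D) := by
  classical
  obtain ⟨s, hs, hord⟩ := exists_shift D v
  have := finite_residueField v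
  have hle : riemannRochSpace D ≤ riemannRochSpace (D + Finsupp.single v 1) :=
    riemannRochSpace_mono (le_add_of_nonneg_right (Finsupp.single_nonneg.2 zero_le_one))
  set S := repartitionsOf D ⊔ principalRepartitions K F with hS
  set T := repartitionsOf (D + Finsupp.single v 1) ⊔ principalRepartitions K F with hT
  set ρ := repStep hs hord with hρ
  -- `ψ : κ(v) → A / (A(D) + F)`
  set κ : repartitionsOf (D + Finsupp.single v 1) →ₗ[K] H1 D :=
    S.mkQ.comp (repartitionsOf (D + Finsupp.single v 1)).subtype with hκ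
  have hker : LinearMap.ker ρ ≤ LinearMap.ker κ := fun α hα => by
    rw [LinearMap.mem_ker] at hα ⊢
    exact (Submodule.Quotient.mk_eq_zero S).2
      (Submodule.mem_sup_left ((repStep_eq_zero_iff hs hord α).1 hα))
  obtain ⟨g, hg⟩ := LinearMap.exists_rightInverse_of_surjective ρ
    (LinearMap.range_eq_top.2 (repStep_surjective hs hord))
  obtain ⟨ψ, hψ⟩ : ∃ ψ : v.ResidueField →ₗ[K] H1 D, ψ = κ.comp g := ⟨_, rfl⟩
  have hψρ : ∀ α, ψ (ρ α) = κ α := fun α => by
    have h0 : g (ρ α) - α ∈ LinearMap.ker ρ := by
      rw [LinearMap.mem_ker, LinearMap.map_sub ρ (g (ρ α)) α, ← LinearMap.comp_apply ρ g, hg,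
        LinearMap.id_apply, sub_self]
    have h1 := hker h0
    rw [LinearMap.mem_ker, LinearMap.map_sub κ (g (ρ α)) α, sub_eq_zero] at h1
    rw [hψ]
    exact h1
  have hrange : LinearMap.range ψ = T.map S.mkQ := by
    apply le_antisymm
    · rintro _ ⟨r, rfl⟩
      obtain ⟨α, rfl⟩ := repStep_surjective hs hord r
      rw [hψρ]
      exact Submodule.mem_map_of_mem (Submodule.mem_sup_left α.2)
    · rw [Submodule.map_sup, sup_le_iff]
      refine ⟨?_, ?_⟩
      · rintro _ ⟨α, hα, rfl⟩
        exact ⟨ρ ⟨α, hα⟩, hψρ _⟩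
      · rintro _ ⟨α, hα, rfl⟩
        rw [Submodule.mkQ_apply, (Submodule.Quotient.mk_eq_zero S).2 (Submodule.mem_sup_right hα)]
        exact zero_mem _
  have hkerψ : LinearMap.ker ψ = LinearMap.range (stepMap D v s hs hord) := by
    apply le_antisymm
    · intro r hr
      obtain ⟨α, rfl⟩ := repStep_surjective hs hord r
      rw [LinearMap.mem_ker, hψρ] at hr
      obtain ⟨β, hβ, γ, hγ, hsum⟩ := Submodule.mem_sup.1 ((Submodule.Quotient.mk_eq_zero S).1 hr)
      obtain ⟨f, hf⟩ := mem_principalRepartitions_iff.1 hγ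
      have hγmem : γ ∈ repartitionsOf (D + Finsupp.single v 1) := by
        rw [show γ = (α : ↥(repartitions K F)) - β from eq_sub_of_add_eq' hsum]
        exact sub_mem α.2 (repartitionsOf_mono
          (le_add_of_nonneg_right (Finsupp.single_nonneg.2 zero_le_one)) hβ)
      have hfmem : f ∈ riemannRochSpace (D + Finsupp.single v 1) :=
        mem_riemannRochSpace.2 fun w => by
          simpa [hf] using (mem_repartitionsOf.1 hγmem) w
      refine ⟨⟨f, hfmem⟩, ?_⟩
      let c : repartitionsOf (D + Finsupp.single v 1) := ⟨γ, hγmem⟩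
      have h0 : ρ (α - c) = 0 := (repStep_eq_zero_iff hs hord (α - c)).2 (by
        have h' : ((α - c : repartitionsOf (D + Finsupp.single v 1)) : ↥(repartitions K F)) = β := by
          rw [Submodule.coe_sub]
          exact sub_eq_of_eq_add hsum.symm
        rw [h']
        exact hβ)
      rw [LinearMap.map_sub ρ α c, sub_eq_zero] at h0
      rw [h0]
      exact congrArg (IsLocalRing.residue _) (Subtype.ext (by
        show f * s = ((γ : ↥(repartitions K F)) : Place K F → F) v * s
        rw [hf]))
    · rintro _ ⟨⟨f, hf⟩, rfl⟩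
      have hmem : algebraMap F ↥(repartitions K F) f ∈ repartitionsOf (D + Finsupp.single v 1) :=
        mem_repartitionsOf.2 fun w => mem_riemannRochSpace.1 hf w
      have h : stepMap D v s hs hord ⟨f, hf⟩ = ρ ⟨_, hmem⟩ := rfl
      rw [LinearMap.mem_ker, h, hψρ]
      exact (Submodule.Quotient.mk_eq_zero S).2
        (Submodule.mem_sup_right (mem_principalRepartitions_iff.2 ⟨f, rfl⟩))
  let e : ((↥(repartitions K F) ⧸ S) ⧸ T.map S.mkQ) ≃ₗ[K] H1 (D + Finsupp.single v 1) :=
    Submodule.quotientQuotientEquivQuotient S T (sup_le_sup_add_single D v)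
  have hsub : Module.Finite K (T.map S.mkQ) := hrange ▸ inferInstance
  have hq : Module.Finite K ((↥(repartitions K F) ⧸ S) ⧸ T.map S.mkQ) := Module.Finite.equiv e.symm
  have hfinD : Module.Finite K (H1 D) := Module.Finite.of_submodule_quotient (T.map S.mkQ)
  refine ⟨hfinD, ?_⟩
  have h1 := Submodule.finrank_quotient_add_finrank (T.map S.mkQ)
  rw [e.finrank_eq] at h1
  have h2 := LinearMap.finrank_range_add_finrank_ker ψ
  rw [hrange, hkerψ] at h2
  have h3 := LinearMap.finrank_range_add_finrank_ker (stepMap D v s hs hord)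
  rw [ker_stepMap, (Submodule.comapSubtypeEquivOfLe hle).finrank_eq] at h3
  rw [ell, ell]
  have a1 : Module.finrank K (H1 (D + Finsupp.single v 1)) + Module.finrank K ↥(T.map S.mkQ)
      = Module.finrank K (H1 D) := h1
  have a2 : Module.finrank K ↥(T.map S.mkQ)
      + Module.finrank K ↥(LinearMap.range (stepMap D v s hs hord)) = v.deg := h2
  omega

end H1Step

/-- `l(D) - h¹(D) - deg D`. -/
def chi (D : Divisor K F) : ℤ :=
  ell D - Module.finrank K (H1 D) - Divisor.degree D

theorem chi_step (D : Divisor K F) (v : Place K F)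
    (h : Module.Finite K (H1 (D + Finsupp.single v 1))) :
    Module.Finite K (H1 D) ∧ chi D = chi (D + Finsupp.single v 1) := by
  obtain ⟨h1, h2⟩ := finite_H1_and_finrank_step D v h
  refine ⟨h1, ?_⟩
  rw [chi, chi, map_add, Divisor.degree_single, one_mul]
  omega

theorem chi_of_le {D E : Divisor K F} (hle : D ≤ E) (h : Module.Finite K (H1 E)) :
    Module.Finite K (H1 D) ∧ chi D = chi E := by
  classical
  suffices ∀ G : Divisor K F, 0 ≤ G → ∀ D, Module.Finite K (H1 (D + G)) →
      Module.Finite K (H1 D) ∧ chi D = chi (D + G) by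
    have := this (E - D) (sub_nonneg.2 hle) D (by rw [add_sub_cancel]; exact h)
    rwa [add_sub_cancel] at this
  intro G
  induction G using Finsupp.induction with
  | zero => intro _ D h; rw [add_zero] at h ⊢; exact ⟨h, rfl⟩
  | single_add w n G' hw hn ih =>
    intro hG D h
    have hn0 : 0 ≤ n := by simpa [Finsupp.notMem_support_iff.1 hw] using hG w
    have hG' : 0 ≤ G' := fun u => by
      rcases eq_or_ne u w with rfl | hne
      · simp [Finsupp.notMem_support_iff.1 hw]
      · simpa [Finsupp.single_eq_of_ne hne] using hG u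
    obtain ⟨k, rfl⟩ := Int.eq_ofNat_of_zero_le hn0
    rw [← add_assoc] at h ⊢
    obtain ⟨h1, h2⟩ := ih hG' _ h
    have key : ∀ k : ℕ, Module.Finite K (H1 (D + Finsupp.single w (k : ℤ))) →
        Module.Finite K (H1 D) ∧ chi D = chi (D + Finsupp.single w (k : ℤ)) := by
      intro k
      induction k with
      | zero => intro h; rw [Nat.cast_zero, Finsupp.single_zero, add_zero] at h ⊢; exact ⟨h, rfl⟩
      | succ k ihk =>
        intro h
        rw [Nat.cast_add_one, Finsupp.single_add, ← add_assoc] at h ⊢
        obtain ⟨h3, h4⟩ := chi_step _ w h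
        obtain ⟨h5, h6⟩ := ihk h3
        exact ⟨h5, h6.trans h4⟩
    obtain ⟨h3, h4⟩ := key k h1
    exact ⟨h3, h4.trans h2⟩

omit [IsFunctionField K F] in
theorem finite_H1_of_sup_eq_top {D : Divisor K F}
    (h : repartitionsOf D ⊔ principalRepartitions K F = ⊤) : Module.Finite K (H1 D) :=
  have : Subsingleton (H1 D) := Submodule.Quotient.subsingleton_iff.2 h
  inferInstance

theorem finite_H1 (D : Divisor K F) : Module.Finite K (H1 D) := by
  obtain ⟨D₀, hD₀⟩ := exists_forall_sup_eq_top (K := K) (F := F)
  exact (chi_of_le (le_sup_left : D ≤ D ⊔ D₀)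
    (finite_H1_of_sup_eq_top (hD₀ _ le_sup_right))).1

instance (D : Divisor K F) : Module.Finite K (H1 D) := finite_H1 D

theorem chi_eq (D E : Divisor K F) : chi D = chi E :=
  (chi_of_le (le_sup_left : D ≤ D ⊔ E) (finite_H1 _)).2.trans
    (chi_of_le (le_sup_right : E ≤ D ⊔ E) (finite_H1 _)).2.symm

/-- The Riemann–Roch theorem. -/
theorem riemann_roch (D : Divisor K F) :
    ell D - Module.finrank K (H1 D)
      = Divisor.degree D + ell (0 : Divisor K F) - genusFF K F := by
  have h := chi_eq D 0
  rw [chi, chi, map_zero] at h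
  unfold genusFF
  omega

theorem ell_zero [IsAlgClosed K] : ell (0 : Divisor K F) = 1 := by
  classical
  obtain ⟨v⟩ := exists_place (K := K) (F := F)
  have h1 := ell_le_ell_add_degree_sub
    (show Finsupp.single v (-1 : ℤ) ≤ (0 : Divisor K F) by simp)
  have h2 : ell (Finsupp.single v (-1 : ℤ)) = 0 := by
    rw [ell, riemannRochSpace_neg_single_eq_bot, finrank_bot]; rfl
  rw [h2, map_zero, Divisor.degree_single, deg_eq_one] at h1
  have hone : (1 : F) ∈ riemannRochSpace (0 : Divisor K F) :=
    mem_riemannRochSpace.2 fun w => ordGe_of_le_ord (by simp)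
  have h3 : 0 < Module.finrank K (riemannRochSpace (0 : Divisor K F)) :=
    Module.finrank_pos_iff_exists_ne_zero.2 ⟨⟨1, hone⟩, fun h => one_ne_zero (congrArg Subtype.val h)⟩
  simp only [ell] at h1 ⊢
  omega

theorem riemann_roch_isAlgClosed [IsAlgClosed K] (D : Divisor K F) :
    ell D - Module.finrank K (H1 D) = Divisor.degree D + 1 - genusFF K F := by
  rw [riemann_roch, ell_zero]

theorem riemann_inequality [IsAlgClosed K] (D : Divisor K F) :
    Divisor.degree D + 1 - genusFF K F ≤ ell D := by
  have := riemann_roch_isAlgClosed D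
  omega

/-- For divisors of large degree the correction term vanishes. -/
theorem exists_forall_finrank_H1_eq_zero :
    ∃ d : ℤ, ∀ D : Divisor K F, d ≤ Divisor.degree D → Module.finrank K (H1 D) = 0 := by
  classical
  obtain ⟨D₀, hD₀⟩ := exists_forall_sup_eq_top (K := K) (F := F)
  refine ⟨Divisor.degree D₀ + genusFF K F, fun D hD => ?_⟩
  -- find `z` with `D₀ ≤ D + div z`
  have hpos : 0 < ell (D - D₀) := by
    have h0 := riemann_roch (D - D₀)
    rw [map_sub] at h0
    have h1 : 0 < ell (0 : Divisor K F) := by
      rw [ell, Nat.cast_pos]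
      exact Module.finrank_pos_iff_exists_ne_zero.2
        ⟨⟨1, mem_riemannRochSpace.2 fun w => ordGe_of_le_ord (by simp)⟩,
          fun h => one_ne_zero (congrArg Subtype.val h)⟩
    omega
  rw [ell, Nat.cast_pos] at hpos
  obtain ⟨⟨z, hzmem⟩, hz0⟩ := Module.finrank_pos_iff_exists_ne_zero.1 hpos
  have hz : z ≠ 0 := fun h => hz0 (Subtype.ext h)
  have hle : D₀ ≤ D + divisorOf z := fun v => by
    have h1 := ((mem_riemannRochSpace.1 hzmem) v).le_ord hz
    simp only [Finsupp.sub_apply, neg_sub, Finsupp.add_apply, divisorOf_apply] at h1 ⊢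
    omega
  have hfin0 : Module.finrank K (H1 (D + divisorOf z)) = 0 := by
    have : Subsingleton (H1 (D + divisorOf z)) :=
      Submodule.Quotient.subsingleton_iff.2 (hD₀ _ hle)
    exact Module.finrank_zero_of_subsingleton
  have h1 := riemann_roch (D + divisorOf z)
  have h2 := riemann_roch D
  have h3 : ell (D + divisorOf z) = ell D := by
    rw [← ell_sub_divisorOf (D + divisorOf z) hz, add_sub_cancel_right]
  rw [h3, hfin0, map_add, degree_divisorOf, add_zero] at h1
  omega

end FLTAgent.FunctionField
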