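import Fermat.Prelude.Def_AlgebraicCurve_Repartitions
import Mathlib.RingTheory.Algebraic.Basic

/-!
# Basic facts on places of a function field

`OrdGe v n f` says that `f` vanishes to order at least `n` at `v` (zero has every order).
-/

set_option autoImplicit false

noncomputable section

open AlgebraicCurve WithZero

namespace FLTAgent.FunctionField

variable {K F : Type*} [Field K] [Field F] [Algebra K F] (v : Place K F)

/-- `f` vanishes to order at least `n` at `v`. -/
def OrdGe (n : ℤ) (f : F) : Prop := v.adicValuation f ≤ exp (-n)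

variable {v}

theorem ordGe_iff {n : ℤ} {f : F} : OrdGe v n f ↔ f = 0 ∨ n ≤ v.ord f := by
  rw [OrdGe, Place.adicValuation_le_exp_iff, neg_neg]

theorem ordGe_iff_of_ne_zero {n : ℤ} {f : F} (hf : f ≠ 0) : OrdGe v n f ↔ n ≤ v.ord f := by
  rw [ordGe_iff, or_iff_right hf]

@[simp] theorem ordGe_zero (n : ℤ) : OrdGe v n (0 : F) := ordGe_iff.2 (Or.inl rfl)

theorem OrdGe.le_ord {n : ℤ} {f : F} (h : OrdGe v n f) (hf : f ≠ 0) : n ≤ v.ord f :=
  (ordGe_iff_of_ne_zero hf).1 h

theorem ordGe_of_le_ord {n : ℤ} {f : F} (h : n ≤ v.ord f) : OrdGe v n f :=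
  ordGe_iff.2 (Or.inr h)

theorem ordGe_ord (f : F) : OrdGe v (v.ord f) f := ordGe_of_le_ord le_rfl

theorem OrdGe.mono {m n : ℤ} {f : F} (h : OrdGe v n f) (hmn : m ≤ n) : OrdGe v m f :=
  h.trans (exp_le_exp.2 (by omega))

theorem OrdGe.add {n : ℤ} {f g : F} (hf : OrdGe v n f) (hg : OrdGe v n g) :
    OrdGe v n (f + g) :=
  (Valuation.map_add _ _ _).trans (max_le hf hg)

theorem OrdGe.neg {n : ℤ} {f : F} (hf : OrdGe v n f) : OrdGe v n (-f) := by
  unfold OrdGe at *
  rwa [Valuation.map_neg]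

theorem OrdGe.sub {n : ℤ} {f g : F} (hf : OrdGe v n f) (hg : OrdGe v n g) :
    OrdGe v n (f - g) := by
  rw [sub_eq_add_neg]
  exact hf.add hg.neg

theorem OrdGe.mul {m n : ℤ} {f g : F} (hf : OrdGe v m f) (hg : OrdGe v n g) :
    OrdGe v (m + n) (f * g) := by
  unfold OrdGe at *
  rw [map_mul, neg_add, exp_add]
  exact mul_le_mul' hf hg

theorem OrdGe.sum {ι : Type*} {s : Finset ι} {n : ℤ} {f : ι → F}
    (h : ∀ i ∈ s, OrdGe v n (f i)) : OrdGe v n (∑ i ∈ s, f i) :=
  Valuation.map_sum_le _ h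

theorem mem_iff_ordGe_zero {f : F} : f ∈ v.toValuationSubring ↔ OrdGe v 0 f := by
  constructor
  · intro h
    simpa [OrdGe] using v.adicValuation_le_one_of_mem h
  · intro h
    rcases eq_or_ne f 0 with rfl | hf
    · exact zero_mem _
    obtain ⟨π, hπ⟩ := IsDiscreteValuationRing.exists_irreducible v.toValuationSubring
    obtain ⟨u, hu⟩ := v.exists_unit_mul_zpow hf hπ
    obtain ⟨k, hk⟩ := Int.eq_ofNat_of_zero_le (h.le_ord hf)
    rw [hu, hk, zpow_natCast]
    exact mul_mem (u : v.toValuationSubring).2 (pow_mem π.2 _)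

theorem mem_iff_ord_nonneg {f : F} (hf : f ≠ 0) :
    f ∈ v.toValuationSubring ↔ 0 ≤ v.ord f := by
  rw [mem_iff_ordGe_zero, ordGe_iff_of_ne_zero hf]

theorem ordGe_one_iff_mem_nonunits {f : F} :
    OrdGe v 1 f ↔ f ∈ v.toValuationSubring.nonunits := by
  rcases eq_or_ne f 0 with rfl | hf
  · simp
  rw [ordGe_iff_of_ne_zero hf, ← inv_inv f, ValuationSubring.inv_mem_nonunits_iff,
    or_iff_right (inv_ne_zero hf), mem_iff_ord_nonneg (inv_ne_zero hf), inv_inv, v.ord_inv]
  omega

theorem residue_eq_zero_iff {a : v.toValuationSubring} :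
    IsLocalRing.residue v.toValuationSubring a = 0 ↔ OrdGe v 1 (a : F) := by
  rw [IsLocalRing.residue_eq_zero_iff, ordGe_one_iff_mem_nonunits,
    ValuationSubring.coe_mem_nonunits_iff]

theorem ordGe_algebraMap (c : K) : OrdGe v 0 (algebraMap K F c) :=
  mem_iff_ordGe_zero.1 (v.algebraMap_mem' c)

@[simp] theorem ord_algebraMap (c : K) : v.ord (algebraMap K F c) = 0 := by
  rcases eq_or_ne c 0 with rfl | hc
  · simp
  have h1 := (ordGe_algebraMap (v := v) c).le_ord (by simpa using hc)
  have h2 := (ordGe_algebraMap (v := v) c⁻¹).le_ord (by simpa using hc)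
  rw [map_inv₀, v.ord_inv] at h2
  omega

theorem ord_neg (f : F) : v.ord (-f) = v.ord f := by
  simp [Place.ord, Valuation.map_neg]

theorem ord_pow (f : F) (n : ℕ) : v.ord (f ^ n) = n * v.ord f := by
  rw [← zpow_natCast, v.ord_zpow]

theorem ord_div {f g : F} (hf : f ≠ 0) (hg : g ≠ 0) : v.ord (f / g) = v.ord f - v.ord g := by
  rw [div_eq_mul_inv, v.ord_mul hf (inv_ne_zero hg), v.ord_inv]
  ring

theorem ord_prod {ι : Type*} (s : Finset ι) (f : ι → F) (hf : ∀ i ∈ s, f i ≠ 0) :
    v.ord (∏ i ∈ s, f i) = ∑ i ∈ s, v.ord (f i) := by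
  classical
  induction s using Finset.induction with
  | empty => simp
  | insert a s ha ih =>
    rw [Finset.prod_insert ha, Finset.sum_insert ha, v.ord_mul (hf a (Finset.mem_insert_self a s))
      (Finset.prod_ne_zero_iff.2 fun i hi => hf i (Finset.mem_insert_of_mem hi)),
      ih fun i hi => hf i (Finset.mem_insert_of_mem hi)]

/-- Equality in the ultrametric inequality when the orders differ. -/
theorem ord_add_eq_left {f g : F} (hf : f ≠ 0) (hg : OrdGe v (v.ord f + 1) g) :
    f + g ≠ 0 ∧ v.ord (f + g) = v.ord f := by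
  have hlt : v.adicValuation g < v.adicValuation f := by
    rw [v.adicValuation_eq_exp_neg_ord hf]
    exact lt_of_le_of_lt hg (exp_lt_exp.2 (by omega))
  have h := Valuation.map_add_eq_of_lt_left v.adicValuation hlt
  refine ⟨fun h0 => ?_, by simp [Place.ord, h]⟩
  rw [h0, map_zero] at h
  exact v.adicValuation_ne_zero hf h.symm

theorem ord_add_eq_min {f g : F} (hf : f ≠ 0) (hg : g ≠ 0) (h : v.ord f ≠ v.ord g) :
    f + g ≠ 0 ∧ v.ord (f + g) = min (v.ord f) (v.ord g) := by
  rcases lt_or_gt_of_ne h with hlt | hgt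
  · rw [min_eq_left hlt.le]
    exact ord_add_eq_left hf (ordGe_of_le_ord (by omega))
  · rw [min_eq_right hgt.le, add_comm]
    exact ord_add_eq_left hg (ordGe_of_le_ord (by omega))

theorem min_ord_le_ord_add {f g : F} (h : f + g ≠ 0) :
    min (v.ord f) (v.ord g) ≤ v.ord (f + g) := by
  rcases eq_or_ne f 0 with rfl | hf
  · simp
  rcases eq_or_ne g 0 with rfl | hg
  · simp
  exact ((ordGe_of_le_ord (min_le_left _ _)).add (ordGe_of_le_ord (min_le_right _ _))).le_ord h

theorem ord_eq_of_ordGe_sub {f g : F} {n : ℤ} (h : OrdGe v n (f - g)) (hg : g ≠ 0)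
    (hn : v.ord g < n) : f ≠ 0 ∧ v.ord f = v.ord g := by
  simpa using ord_add_eq_left (v := v) hg (h.mono (by omega : v.ord g + 1 ≤ n))

/-- A place with every integer as an order. -/
theorem exists_ord_eq (v : Place K F) (n : ℤ) : ∃ f : F, f ≠ 0 ∧ v.ord f = n := by
  obtain ⟨π, hπ⟩ := IsDiscreteValuationRing.exists_irreducible v.toValuationSubring
  have hπ0 : (π : F) ≠ 0 := by simpa [ZeroMemClass.coe_eq_zero] using hπ.ne_zero
  exact ⟨(π : F) ^ n, zpow_ne_zero _ hπ0, by simp [v.ord_zpow, v.ord_coe_irreducible hπ]⟩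

/-- Valuation rings of places are maximal: containment implies equality. -/
theorem place_eq_of_le {v w : Place K F} (h : v.toValuationSubring ≤ w.toValuationSubring) :
    v = w := by
  refine Place.ext (le_antisymm h fun f hf => ?_)
  by_contra hfv
  apply w.ne_top'
  rw [eq_top_iff]
  intro g _
  have hf0 : f ≠ 0 := fun h0 => hfv (h0 ▸ zero_mem _)
  rw [mem_iff_ord_nonneg hf0, not_le] at hfv
  rcases eq_or_ne g 0 with rfl | hg
  · exact zero_mem _
  -- `g = (g / f ^ m) * f ^ m` with the first factor integral at `v`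
  have hm : g / f ^ (v.ord g).natAbs ∈ v.toValuationSubring := by
    rw [mem_iff_ord_nonneg (div_ne_zero hg (pow_ne_zero _ hf0)),
      ord_div hg (pow_ne_zero _ hf0), ord_pow]
    have : ((v.ord g).natAbs : ℤ) * v.ord f ≤ ((v.ord g).natAbs : ℤ) * (-1) :=
      mul_le_mul_of_nonneg_left (by omega) (Int.natCast_nonneg _)
    omega
  have := mul_mem (h hm) (pow_mem hf (v.ord g).natAbs)
  rwa [div_mul_cancel₀ _ (pow_ne_zero _ hf0)] at this

theorem ord_aeval_of_ord_neg {x : F} (hx : v.ord x < 0) (p : Polynomial K) (hp : p ≠ 0) :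
    Polynomial.aeval x p ≠ 0 ∧ v.ord (Polynomial.aeval x p) = p.natDegree * v.ord x := by
  have hx0 : x ≠ 0 := fun h => by simp [h] at hx
  have hlead : algebraMap K F p.leadingCoeff * x ^ p.natDegree ≠ 0 :=
    mul_ne_zero (by simpa using hp) (pow_ne_zero _ hx0)
  have hord : v.ord (algebraMap K F p.leadingCoeff * x ^ p.natDegree) = p.natDegree * v.ord x := by
    rw [v.ord_mul (by simpa using hp) (pow_ne_zero _ hx0), ord_algebraMap, ord_pow, zero_add]
  have hsum : Polynomial.aeval x p = algebraMap K F p.leadingCoeff * x ^ p.natDegree +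
      ∑ i ∈ Finset.range p.natDegree, algebraMap K F (p.coeff i) * x ^ i := by
    rw [Polynomial.aeval_eq_sum_range, Finset.sum_range_succ, add_comm]
    simp only [Algebra.smul_def, Polynomial.leadingCoeff]
  rw [hsum, ← hord]
  refine ord_add_eq_left hlead (OrdGe.sum fun i hi => ?_)
  rw [hord]
  have h2 := (ordGe_algebraMap (v := v) (p.coeff i)).mul (ordGe_of_le_ord (f := x ^ i) (n := i * v.ord x)
    (by rw [ord_pow]))
  refine h2.mono ?_
  have : (i : ℤ) + 1 ≤ p.natDegree := by exact_mod_cast Finset.mem_range.1 hi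
  nlinarith

/-- Elements of nonzero order are transcendental over the constants. -/
theorem transcendental_of_ord_ne_zero {x : F} (hx : v.ord x ≠ 0) : Transcendental K x := by
  intro halg
  rcases lt_or_gt_of_ne hx with h | h
  · obtain ⟨p, hp, h0⟩ := halg
    exact (ord_aeval_of_ord_neg h p hp).1 h0
  · obtain ⟨p, hp, h0⟩ := halg.inv
    exact (ord_aeval_of_ord_neg (v := v) (x := x⁻¹) (by rw [v.ord_inv]; omega) p hp).1 h0

theorem ord_eq_zero_of_isAlgebraic {x : F} (hx : IsAlgebraic K x) : v.ord x = 0 := by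
  by_contra h
  exact transcendental_of_ord_ne_zero h hx

end FLTAgent.FunctionField
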