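import Fermat.Agent.FunctionField.Basic
import Fermat.Prelude.Def_AlgebraicCurve_IsCurveOver
import Mathlib.RingTheory.Finiteness.Basic

/-!
# Zeros of a function: finiteness of places and residue fields, the degree inequality
-/

set_option autoImplicit false

noncomputable section

open AlgebraicCurve Polynomial IntermediateField

namespace FLTAgent.FunctionField

variable {K F : Type*} [Field K] [Field F] [Algebra K F]

theorem residue_algebraMap (v : Place K F) (c : K) :
    IsLocalRing.residue v.toValuationSubring (algebraMap K v.toValuationSubring c)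
      = algebraMap K v.ResidueField c := rfl

theorem residue_sum_smul (v : Place K F) {J : Type*} [Fintype J] (c : J → K)
    (a : J → v.toValuationSubring) :
    IsLocalRing.residue v.toValuationSubring (∑ j, algebraMap K v.toValuationSubring (c j) * a j)
      = ∑ j, c j • IsLocalRing.residue v.toValuationSubring (a j) := by
  simp only [map_sum, map_mul, Algebra.smul_def, residue_algebraMap]

theorem ordGe_aeval {v : Place K F} {x : F} (hx : OrdGe v 0 x) (p : K[X]) :
    OrdGe v 0 (aeval x p) := by
  rw [aeval_eq_sum_range]
  refine OrdGe.sum fun i _ => ?_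
  rw [Algebra.smul_def]
  simpa using (ordGe_algebraMap (p.coeff i)).mul
    (mem_iff_ordGe_zero.1 (pow_mem (mem_iff_ordGe_zero.2 hx) i))

theorem aeval_eq_divX_mul_add (x : F) (p : K[X]) :
    aeval x p = aeval x p.divX * x + algebraMap K F (p.coeff 0) := by
  conv_lhs => rw [← divX_mul_X_add p]
  simp

theorem ordGe_aeval_of_coeff_zero {v : Place K F} {x : F} {e : ℤ} (he : 0 ≤ e)
    (hx : OrdGe v e x) {p : K[X]} (hp : p.coeff 0 = 0) : OrdGe v e (aeval x p) := by
  have : aeval x p = aeval x p.divX * x := by
    conv_lhs => rw [← divX_mul_X_add p]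
    simp [hp]
  rw [this]
  simpa using (ordGe_aeval (hx.mono he) p.divX).mul hx

/-- Zeros of `x`, each counted with order times an independent family of residues, number at
most `[F : K⟮x⟯]`. -/
theorem sum_ord_mul_card_le {x : F} [FiniteDimensional K⟮x⟯ F] {ι : Type*} [Fintype ι]
    (w : ι → Place K F) (hw : Function.Injective w) (hpos : ∀ i, 0 < (w i).ord x)
    {J : ι → Type*} [∀ i, Fintype (J i)] (z : ∀ i, J i → (w i).toValuationSubring)
    (hz : ∀ i, LinearIndependent K
      fun j => IsLocalRing.residue (w i).toValuationSubring (z i j)) :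
    ∑ i, ((w i).ord x).toNat * Fintype.card (J i) ≤ Module.finrank K⟮x⟯ F := by
  classical
  rcases isEmpty_or_nonempty ι with hι | hι
  · simp
  have hxt : Transcendental K x :=
    transcendental_of_ord_ne_zero (hpos (Classical.arbitrary ι)).ne'
  set e : ι → ℕ := fun i => ((w i).ord x).toNat with he
  have hxe : ∀ i, OrdGe (w i) (e i) x := fun i => ordGe_of_le_ord (by
    have := hpos i
    simp only [he]
    omega)
  have he1 : ∀ i, (1 : ℤ) ≤ e i := fun i => by
    have := hpos i
    simp only [he]
    omega
  choose t ht0 ht using fun i => exists_forall_ord_eq (Finset.univ.image w)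
    (fun v => if v = w i then (1 : ℤ) else 0)
  have ht' : ∀ i k, (w k).ord (t i) = if k = i then 1 else 0 := fun i k => by
    rw [ht i (w k) (Finset.mem_image_of_mem _ (Finset.mem_univ k))]
    exact if_congr hw.eq_iff rfl rfl
  choose z' hz' using fun i (j : J i) => exists_ordGe_sub (Finset.univ.image w)
    (fun v => if v = w i then (z i j : F) else 0)
    (fun v => if v = w i then 1 else v.ord x)
  have hzi : ∀ i j, OrdGe (w i) 1 (z' i j - z i j) := fun i j => by
    simpa using hz' i j (w i) (Finset.mem_image_of_mem _ (Finset.mem_univ i))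
  have hzk : ∀ i j k, k ≠ i → OrdGe (w k) (e k) (z' i j) := fun i j k hk => by
    have := hz' i j (w k) (Finset.mem_image_of_mem _ (Finset.mem_univ k))
    simp only [hw.eq_iff, hk, if_false, sub_zero] at this
    exact this.mono (by have := hpos k; simp only [he]; omega)
  set u : (Σ i, Fin (e i) × J i) → F := fun b => t b.1 ^ (b.2.1 : ℕ) * z' b.1 b.2.2 with hu
  set P : Set K[X] := {p | p.coeff 0 = 0} with hP
  have key : ∀ q : (Σ i, Fin (e i) × J i) → K[X],
      ∑ b, aeval x (q b) * u b = 0 → ∀ b, (q b).coeff 0 = 0 := by
    intro q hq b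
    refine coeff_mem_of_ordGe (aeval x : K[X] →ₐ[K] F).toRingHom P w e t z'
      (fun i c => ordGe_aeval ((hxe i).mono (by omega)) c)
      (fun i c hc => ordGe_aeval_of_coeff_zero (by omega) (hxe i) hc)
      (fun i => ⟨ht0 i, by rw [ht' i i, if_pos rfl]⟩)
      (fun i k hk => ordGe_of_le_ord (by rw [ht' i k, if_neg hk]))
      (fun i j => by
        have h1 : OrdGe (w i) 0 (z i j : F) := mem_iff_ordGe_zero.1 (z i j).2
        simpa using ((hzi i j).mono zero_le_one).add h1)
      hzk ?_ (fun i a j => q ⟨i, a, j⟩) ?_ b.1 b.2.1 b.2.2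
    · intro i d hd j
      have h1 : OrdGe (w i) 1 (∑ j, algebraMap K F ((d j).coeff 0) * (z i j : F)) := by
        have h2 : OrdGe (w i) 1 (∑ j, ((aeval x : K[X] →ₐ[K] F).toRingHom (d j) * z' i j -
            algebraMap K F ((d j).coeff 0) * (z i j : F))) := by
          refine OrdGe.sum fun j _ => ?_
          have e1 : aeval x (d j) * z' i j - algebraMap K F ((d j).coeff 0) * (z i j : F)
              = aeval x (d j).divX * x * z' i j
                + algebraMap K F ((d j).coeff 0) * (z' i j - z i j) := by
            rw [aeval_eq_divX_mul_add x (d j)]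
            ring
          refine e1 ▸ OrdGe.add ?_ (by simpa using (ordGe_algebraMap _).mul (hzi i j))
          have h1 : OrdGe (w i) 0 (z i j : F) := mem_iff_ordGe_zero.1 (z i j).2
          have h3 : OrdGe (w i) 0 (z' i j) := by
            simpa using ((hzi i j).mono zero_le_one).add h1
          simpa using ((ordGe_aeval ((hxe i).mono (by omega)) (d j).divX).mul
            ((hxe i).mono (he1 i))).mul h3
        rw [Finset.sum_sub_distrib] at h2
        simpa using hd.sub h2
      have h2 : IsLocalRing.residue (w i).toValuationSubring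
          (∑ j, algebraMap K (w i).toValuationSubring ((d j).coeff 0) * z i j) = 0 := by
        rw [residue_eq_zero_iff]
        simpa using h1
      rw [residue_sum_smul] at h2
      exact Fintype.linearIndependent_iff.1 (hz i) _ h2 j
    · intro k
      have h0 : ∑ i, ∑ a, ∑ j, aeval x (q ⟨i, a, j⟩) * (t i ^ (a : ℕ) * z' i j) = 0 := by
        rw [← hq, Fintype.sum_sigma]
        exact Finset.sum_congr rfl fun i _ => by rw [Fintype.sum_prod_type]
      exact h0 ▸ ordGe_zero _
  have hli : LinearIndependent K⟮x⟯ u := by
    refine linearIndependent_adjoin_of_polynomial fun s p hsum b hb => ?_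
    set q : (Σ i, Fin (e i) × J i) → K[X] := fun b => if b ∈ s then p b else 0 with hq
    have hq0 : ∑ b, aeval x (q b) * u b = 0 := by
      rw [← hsum, ← Finset.sum_subset (Finset.subset_univ s) (fun b _ hb => by simp [hq, hb])]
      exact Finset.sum_congr rfl fun b hb => by simp [hq, hb]
    suffices ∀ (n : ℕ) (q : (Σ i, Fin (e i) × J i) → K[X]), ∑ b, aeval x (q b) * u b = 0 →
        ∀ b, (q b).coeff n = 0 by
      refine Polynomial.ext fun n => ?_
      simpa [hq, hb] using this n q hq0 b
    intro n
    induction n with
    | zero => exact key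
    | succ n IH =>
      intro q hq b
      have hX : ∀ b, q b = (q b).divX * X := fun b => by
        conv_lhs => rw [← divX_mul_X_add (q b)]
        simp [key q hq b]
      have h2 : x * ∑ b, aeval x (q b).divX * u b = 0 := by
        rw [Finset.mul_sum, ← hq]
        refine Finset.sum_congr rfl fun b _ => ?_
        conv_rhs => rw [hX b]
        simp only [map_mul, aeval_X]
        ring
      have := IH (fun b => (q b).divX)
        ((mul_eq_zero.1 h2).resolve_left (ne_zero_of_transcendental hxt)) b
      simpa [coeff_divX] using this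
  refine le_of_eq_of_le ?_ hli.fintype_card_le_finrank
  simp [Fintype.card_sigma, he]

variable [hF : IsFunctionField K F]

theorem finite_residueField (v : Place K F) : Module.Finite K v.ResidueField := by
  obtain ⟨x, -, hx⟩ := exists_ord_eq v 1
  have := finiteDimensional_adjoin_of_transcendental
    (transcendental_of_ord_ne_zero (v := v) (x := x) (by omega))
  refine Module.rank_lt_aleph0_iff.1 (lt_of_le_of_lt
    (rank_le (n := Module.finrank K⟮x⟯ F) fun s hs => ?_) Cardinal.natCast_lt_aleph0)
  choose z hz using fun j : {r // r ∈ s} => IsLocalRing.residue_surjective (R := v.toValuationSubring) j.1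
  have := sum_ord_mul_card_le (ι := Unit) (fun _ => v) (fun _ _ _ => rfl)
    (fun _ => (by omega : 0 < v.ord x)) (fun _ => z) (fun _ => by
      convert hs with j
      all_goals exact hz j)
  simpa [hx] using this

instance (v : Place K F) : v.FiniteResidue := ⟨finite_residueField v⟩

theorem deg_pos (v : Place K F) : 0 < v.deg :=
  have := finite_residueField v
  Module.finrank_pos

theorem deg_eq_one [IsAlgClosed K] (v : Place K F) : v.deg = 1 :=
  have := finite_residueField v
  v.deg_eq_one_of_isAlgClosed_of_finite

/-- The inequality: the degree of any set of zeros of `x` is at most `[F : K⟮x⟯]`. -/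
theorem sum_ord_mul_deg_le {x : F} (hx : Transcendental K x) (s : Finset (Place K F))
    (hs : ∀ v ∈ s, 0 < v.ord x) :
    ∑ v ∈ s, (v.ord x).toNat * v.deg ≤ Module.finrank K⟮x⟯ F := by
  classical
  have := finiteDimensional_adjoin_of_transcendental hx
  have hfin := fun v : Place K F => finite_residueField v
  choose z hz using fun (v : {v // v ∈ s}) (j : Fin v.1.deg) =>
    IsLocalRing.residue_surjective (R := v.1.toValuationSubring)
      ((Module.finBasis K v.1.ResidueField) j)
  have := sum_ord_mul_card_le (x := x) (fun v : {v // v ∈ s} => v.1) Subtype.val_injective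
    (fun v => hs v.1 v.2) z (fun v => by
      have hb := (Module.finBasis K v.1.ResidueField).linearIndependent
      rw [← (funext fun j => hz v j :
        (fun j => IsLocalRing.residue v.1.toValuationSubring (z v j)) =
          ⇑(Module.finBasis K v.1.ResidueField))] at hb
      exact hb)
  rw [Finset.sum_attach s (fun v => (v.ord x).toNat * v.deg) |>.symm]
  simpa using this

theorem finite_setOf_ord_pos (f : F) : {v : Place K F | 0 < v.ord f}.Finite := by
  classical
  by_cases hf : IsAlgebraic K f
  · simp [ord_eq_zero_of_isAlgebraic hf]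
  by_contra hinf
  obtain ⟨s, hs, hcard⟩ :=
    Set.Infinite.exists_subset_card_eq hinf (Module.finrank K⟮f⟯ F + 1)
  have hle := sum_ord_mul_deg_le hf s hs
  have : ∑ _v ∈ s, 1 ≤ ∑ v ∈ s, (v.ord f).toNat * v.deg := by
    refine Finset.sum_le_sum fun v hv => ?_
    have h1 : 0 < v.ord f := hs hv
    exact Nat.mul_pos (by omega) (deg_pos v)
  rw [Finset.sum_const, hcard, smul_eq_mul, mul_one] at this
  omega

theorem finite_setOf_ord_ne_zero (f : F) : {v : Place K F | v.ord f ≠ 0}.Finite := by
  refine ((finite_setOf_ord_pos (K := K) f).union (finite_setOf_ord_pos (K := K) f⁻¹)).subset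
    fun v hv => ?_
  simp only [Set.mem_ofPred_eq, Set.mem_union, v.ord_inv] at hv ⊢
  omega

/-- The divisor of a function (the zero divisor for `f = 0`). -/
def divisorOf (f : F) : Divisor K F :=
  Finsupp.ofSupportFinite (fun v => v.ord f) (finite_setOf_ord_ne_zero f)

@[simp] theorem divisorOf_apply (f : F) (v : Place K F) : divisorOf f v = v.ord f := rfl

theorem divisorOf_mul {f g : F} (hf : f ≠ 0) (hg : g ≠ 0) :
    divisorOf (K := K) (f * g) = divisorOf f + divisorOf g := by
  ext v; simp [v.ord_mul hf hg]

theorem divisorOf_inv (f : F) : divisorOf (K := K) f⁻¹ = -divisorOf f := by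
  ext v; simp [v.ord_inv]

/-- The divisor of zeros of a function. -/
def zeroDivisor (f : F) : Divisor K F :=
  (divisorOf f).mapRange (fun n => max n 0) (max_self 0)

@[simp] theorem zeroDivisor_apply (f : F) (v : Place K F) :
    zeroDivisor f v = max (v.ord f) 0 := by simp [zeroDivisor]

theorem zeroDivisor_nonneg (f : F) : 0 ≤ zeroDivisor (K := K) f := fun v => by simp

theorem zeroDivisor_sub_zeroDivisor_inv (f : F) :
    zeroDivisor (K := K) f - zeroDivisor f⁻¹ = divisorOf f := by
  ext v; simp [v.ord_inv]

omit hF in
theorem degree_eq_sum (D : Divisor K F) :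
    Divisor.degree D = ∑ v ∈ D.support, D v * (v.deg : ℤ) := by
  rw [Divisor.degree, Finsupp.liftAddHom_apply]
  rfl

theorem degree_zeroDivisor_le {x : F} (hx : Transcendental K x) :
    Divisor.degree (zeroDivisor (K := K) x) ≤ Module.finrank K⟮x⟯ F := by
  classical
  have hs : ∀ v ∈ (zeroDivisor (K := K) x).support, 0 < v.ord x := fun v hv => by
    simp only [Finsupp.mem_support_iff, zeroDivisor_apply] at hv
    omega
  refine le_of_eq_of_le ?_ (Nat.cast_le.2 (sum_ord_mul_deg_le hx _ hs))
  rw [degree_eq_sum, Nat.cast_sum]
  refine Finset.sum_congr rfl fun v hv => ?_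
  simp

end FLTAgent.FunctionField
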