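import Fermat.Agent.FunctionField.Principal

/-!
# Riemann's inequality
-/

set_option autoImplicit false

noncomputable section

open AlgebraicCurve Polynomial IntermediateField

namespace FLTAgent.FunctionField

variable {K F : Type*} [Field K] [Field F] [Algebra K F]

/-- `l(D)`, the dimension of the Riemann–Roch space, as an integer. -/
def ell (D : Divisor K F) : ℤ := Module.finrank K (riemannRochSpace D)

variable [IsFunctionField K F]

theorem ell_mono {D E : Divisor K F} (h : D ≤ E) : ell D ≤ ell E :=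
  Nat.cast_le.2 (Submodule.finrank_mono (riemannRochSpace_mono h))

theorem ell_le_ell_add_degree_sub {D E : Divisor K F} (h : D ≤ E) :
    ell E ≤ ell D + (Divisor.degree E - Divisor.degree D) := by
  have := finrank_riemannRochSpace_add_le D (E := E - D) (sub_nonneg.2 h)
  rwa [add_sub_cancel, map_sub] at this

/-- Multiplication by `z` identifies `L(D)` with `L(D - div z)`. -/
def mulEquiv (D : Divisor K F) {z : F} (hz : z ≠ 0) :
    riemannRochSpace D ≃ₗ[K] riemannRochSpace (D - divisorOf z) where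
  toFun f := ⟨(f : F) * z, mem_riemannRochSpace.2 fun v => by
    rw [ordGe_mul_iff hz]
    simpa using mem_riemannRochSpace.1 f.2 v⟩
  invFun f := ⟨(f : F) * z⁻¹, mem_riemannRochSpace.2 fun v => by
    rw [ordGe_mul_iff (inv_ne_zero hz), v.ord_inv, sub_neg_eq_add]
    refine (mem_riemannRochSpace.1 f.2 v).mono ?_
    simp⟩
  map_add' f g := Subtype.ext (add_mul _ _ _)
  map_smul' c f := Subtype.ext (smul_mul_assoc c _ _)
  left_inv f := Subtype.ext (by simp [hz])
  right_inv f := Subtype.ext (by simp [hz])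

theorem ell_sub_divisorOf (D : Divisor K F) {z : F} (hz : z ≠ 0) :
    ell (D - divisorOf z) = ell D :=
  congrArg Nat.cast (mulEquiv D hz).finrank_eq.symm

theorem exists_bound_degree_sub_ell :
    ∃ γ : ℤ, ∀ D : Divisor K F, Divisor.degree D - ell D ≤ γ := by
  classical
  obtain ⟨x, hx, hfin⟩ := IsFunctionField.exists_finite_adjoin (K := K) (F := F)
  obtain ⟨C, hC, hb⟩ := exists_lower_bound hx
  set n := Module.finrank K⟮x⟯ F
  have hn : 0 < n := Module.finrank_pos
  set B := zeroDivisor (K := K) x⁻¹ with hB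
  have hdegB : Divisor.degree B = n := by
    have hxi : Transcendental K x⁻¹ := fun h => hx (by simpa using h.inv)
    rw [hB, degree_zeroDivisor hxi]
    have h1 : K⟮x⁻¹⟯ = K⟮x⟯ :=
      le_antisymm (adjoin_simple_le_iff.2 (inv_mem (mem_adjoin_simple_self K x)))
        (adjoin_simple_le_iff.2 (by simpa using inv_mem (mem_adjoin_simple_self K x⁻¹)))
    rw [h1]
  have hlB : ∀ l : ℕ, ((l : ℤ) + 1) * n - Divisor.degree C ≤ ell (l • B) := fun l => by
    have h1 : (((l + 1) * n : ℕ) : ℤ)
        ≤ Module.finrank K (riemannRochSpace (l • B + C)) := Nat.cast_le.2 (hb l)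
    have h2 := finrank_riemannRochSpace_add_le (l • B) hC
    push_cast at h1
    rw [ell]
    omega
  refine ⟨Divisor.degree C - n, fun D => ?_⟩
  set Dp : Divisor K F := D.mapRange (fun k => max k 0) (max_self 0) with hDp
  have hDle : D ≤ Dp := fun v => by simp [hDp]
  have hDp0 : 0 ≤ Dp := fun v => by simp [hDp]
  set l : ℕ := (Divisor.degree C + Divisor.degree Dp).toNat + 1 with hl
  have hsub : l • B - Dp ≤ l • B := sub_le_self _ hDp0
  have hpos : 0 < ell (l • B - Dp) := by
    have h1 := ell_le_ell_add_degree_sub hsub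
    rw [map_sub] at h1
    have h2 := hlB l
    have h3 : ((l : ℤ) + 1) * 1 ≤ ((l : ℤ) + 1) * n :=
      mul_le_mul_of_nonneg_left (by omega) (by omega)
    omega
  rw [ell, Nat.cast_pos] at hpos
  obtain ⟨⟨z, hzmem⟩, hz0⟩ := Module.finrank_pos_iff_exists_ne_zero.1 hpos
  have hz : z ≠ 0 := fun h => hz0 (Subtype.ext h)
  have hDle' : D ≤ l • B + divisorOf z := fun v => by
    have h1 := ((mem_riemannRochSpace.1 hzmem) v).le_ord hz
    have h2 := hDle v
    simp only [Finsupp.sub_apply, neg_sub, Finsupp.add_apply, divisorOf_apply] at h1 h2 ⊢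
    omega
  have h1 := ell_le_ell_add_degree_sub hDle'
  have h2 : ell (l • B + divisorOf z) = ell (l • B) := by
    rw [← ell_sub_divisorOf (l • B + divisorOf z) hz, add_sub_cancel_right]
  rw [map_add, degree_divisorOf, add_zero, map_nsmul, hdegB, nsmul_eq_mul] at h1
  have h3 := hlB l
  rw [add_mul, one_mul] at h3
  omega

theorem exists_ord_neg_forall_nonneg (v : Place K F) :
    ∃ f : F, f ≠ 0 ∧ v.ord f < 0 ∧ ∀ w : Place K F, w ≠ v → 0 ≤ w.ord f := by
  classical
  obtain ⟨γ, hγ⟩ := exists_bound_degree_sub_ell (K := K) (F := F)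
  set m : ℕ := (γ + ell (0 : Divisor K F)).toNat + 1 with hm
  have h1 := hγ (Finsupp.single v (m : ℤ))
  rw [Divisor.degree_single] at h1
  have h2 : (m : ℤ) * 1 ≤ (m : ℤ) * v.deg :=
    mul_le_mul_of_nonneg_left (by have := deg_pos v; omega) (by omega)
  have hlt : riemannRochSpace (0 : Divisor K F) < riemannRochSpace (Finsupp.single v (m : ℤ)) := by
    refine lt_of_le_of_ne (riemannRochSpace_mono (Finsupp.single_nonneg.2 (by omega))) fun h => ?_
    have h3 : ell (Finsupp.single v (m : ℤ)) = ell (0 : Divisor K F) := by rw [ell, ell, h]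
    omega
  obtain ⟨f, hf, hf'⟩ := SetLike.exists_of_lt hlt
  have hf0 : f ≠ 0 := fun h => hf' (h ▸ zero_mem _)
  rw [mem_riemannRochSpace] at hf hf'
  have hw : ∀ w : Place K F, w ≠ v → 0 ≤ w.ord f := fun w hw => by
    simpa [Finsupp.single_eq_of_ne hw] using (hf w).le_ord hf0
  refine ⟨f, hf0, ?_, hw⟩
  by_contra hv
  refine hf' fun w => ordGe_of_le_ord ?_
  rcases eq_or_ne w v with rfl | hne
  · simpa using (not_lt.1 hv)
  · simpa using hw w hne

end FLTAgent.FunctionField
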