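import Fermat.Agent.FunctionField.PlaceBasic

/-!
# Weak approximation for places
-/

set_option autoImplicit false

noncomputable section

open AlgebraicCurve

namespace FLTAgent.FunctionField

variable {K F : Type*} [Field K] [Field F] [Algebra K F]

theorem exists_ord_neg_of_ne {v w : Place K F} (h : v ≠ w) :
    ∃ f : F, f ≠ 0 ∧ 0 ≤ v.ord f ∧ w.ord f < 0 := by
  have h' : ¬ v.toValuationSubring ≤ w.toValuationSubring := fun hle => h (place_eq_of_le hle)
  obtain ⟨f, hfv, hfw⟩ := SetLike.not_le_iff_exists.1 h'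
  have hf : f ≠ 0 := fun h0 => hfw (h0 ▸ zero_mem _)
  rw [mem_iff_ord_nonneg hf] at hfv hfw
  exact ⟨f, hf, hfv, not_le.1 hfw⟩

theorem exists_ord_pos_forall_neg (s : Finset (Place K F)) :
    ∀ v : Place K F, v ∉ s → ∃ z : F, z ≠ 0 ∧ 0 < v.ord z ∧ ∀ w ∈ s, w.ord z < 0 := by
  classical
  induction s using Finset.induction with
  | empty =>
    intro v _
    obtain ⟨f, hf, h1⟩ := exists_ord_eq v 1
    exact ⟨f, hf, by omega, by simp⟩
  | insert w s hw ih =>
    intro v hv
    rw [Finset.mem_insert, not_or] at hv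
    obtain ⟨z, hz, hzv, hzs⟩ := ih v hv.2
    obtain ⟨a, ha, hav, haw⟩ := exists_ord_neg_of_ne hv.1
    obtain ⟨b, hb, hbw, hbv⟩ := exists_ord_neg_of_ne (Ne.symm hv.1)
    have hy : a / b ≠ 0 := div_ne_zero ha hb
    have hyv : 0 < v.ord (a / b) := by rw [ord_div ha hb]; omega
    have hyw : w.ord (a / b) < 0 := by rw [ord_div ha hb]; omega
    generalize a / b = y at hy hyv hyw
    rcases lt_or_ge (w.ord z) 0 with hzw | hzw
    · exact ⟨z, hz, hzv, fun u hu => by
        rcases Finset.mem_insert.1 hu with rfl | hu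
        · exact hzw
        · exact hzs u hu⟩
    -- choose `r` larger than all the orders of `z` in sight
    set T := insert v (insert w s) with hT
    set r : ℕ := T.sup (fun u => (u.ord z).natAbs) + 1 with hr
    have hyr : y ^ r ≠ 0 := pow_ne_zero _ hy
    have hne : ∀ u ∈ T, u.ord y = 0 ∨ u.ord z ≠ u.ord (y ^ r) := by
      intro u hu
      rcases eq_or_ne (u.ord y) 0 with h0 | h0
      · exact Or.inl h0
      right
      have hle : (u.ord z).natAbs < r :=
        Nat.lt_succ_of_le (Finset.le_sup (f := fun u => (u.ord z).natAbs) hu)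
      rw [ord_pow]
      intro heq
      rw [heq, Int.natAbs_mul, Int.natAbs_natCast] at hle
      exact absurd hle (not_lt.2 (Nat.le_mul_of_pos_right r (Int.natAbs_pos.2 h0)))
    have hzyw : w.ord z ≠ w.ord (y ^ r) := by
      rw [ord_pow]
      have : (r : ℤ) * w.ord y < 0 := mul_neg_of_pos_of_neg (by omega) hyw
      omega
    obtain ⟨hne0, hwz⟩ := ord_add_eq_min hz hyr hzyw
    refine ⟨z + y ^ r, hne0, ?_, ?_⟩
    · refine lt_of_lt_of_le ?_ (min_ord_le_ord_add hne0)
      rw [ord_pow]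
      exact lt_min hzv (mul_pos (by omega) hyv)
    · intro u hu
      rcases Finset.mem_insert.1 hu with rfl | hu
      · rw [hwz]
        refine lt_of_le_of_lt (min_le_right _ _) ?_
        rw [ord_pow]
        exact mul_neg_of_pos_of_neg (by omega) hyw
      · have hu' : u.ord z ≠ u.ord (y ^ r) := by
          rcases hne u (by simp [hT, hu]) with h0 | h0
          · rw [ord_pow, h0]
            have := hzs u hu
            omega
          · exact h0
        rw [(ord_add_eq_min hz hyr hu').2]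
        exact lt_of_le_of_lt (min_le_left _ _) (hzs u hu)

theorem exists_ordGe_sub_one (s : Finset (Place K F)) {v : Place K F} (hv : v ∉ s) (N : ℕ) :
    ∃ f : F, OrdGe v N (f - 1) ∧ ∀ w ∈ s, OrdGe w N f := by
  obtain ⟨z, hz, hzv, hzs⟩ := exists_ord_pos_forall_neg s v hv
  set r : ℕ := N + 1 with hr
  have hr0 : z ^ r ≠ 0 := pow_ne_zero _ hz
  have hrz : (r : ℤ) ≤ v.ord (z ^ r) := by
    rw [ord_pow]
    exact le_mul_of_one_le_right (by omega) hzv
  have hv1 := ord_add_eq_left (v := v) (g := z ^ r) one_ne_zero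
    (ordGe_of_le_ord (by rw [v.ord_one]; omega))
  refine ⟨(1 + z ^ r)⁻¹, ?_, fun w hw => ?_⟩
  · have heq : (1 + z ^ r)⁻¹ - 1 = -(z ^ r / (1 + z ^ r)) := by
      field_simp [hv1.1]
      ring
    rw [heq]
    refine (ordGe_of_le_ord ?_).neg
    rw [ord_div hr0 hv1.1, hv1.2, v.ord_one]
    omega
  · refine ordGe_of_le_ord ?_
    have hw' : w.ord (z ^ r) ≤ -(r : ℤ) := by
      rw [ord_pow]
      have : (r : ℤ) * w.ord z ≤ (r : ℤ) * (-1) :=
        mul_le_mul_of_nonneg_left (by have := hzs w hw; omega) (by omega)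
      omega
    have h2 := ord_add_eq_min (v := w) hr0 one_ne_zero (by rw [w.ord_one]; omega)
    rw [w.ord_inv, add_comm, h2.2, w.ord_one]
    omega

/-- Weak approximation. -/
theorem exists_ordGe_sub (s : Finset (Place K F)) (a : Place K F → F) (n : Place K F → ℤ) :
    ∃ f : F, ∀ v ∈ s, OrdGe v (n v) (f - a v) := by
  classical
  obtain ⟨M, hMb⟩ : ∃ M : ℤ, ∀ v ∈ s, ∀ w ∈ s, |v.ord (a w)| + |n v| ≤ M := by
    obtain ⟨M, hM⟩ := ((s ×ˢ s).image fun p => |p.1.ord (a p.2)| + |n p.1|).bddAbove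
    exact ⟨M, fun v hv w hw => hM (Finset.mem_coe.2
      (Finset.mem_image.2 ⟨(v, w), Finset.mk_mem_product hv hw, rfl⟩))⟩
  have hex : ∀ w : Place K F, ∃ g : F, OrdGe w M.toNat (g - 1) ∧
      ∀ v ∈ s.erase w, OrdGe v M.toNat g :=
    fun w => exists_ordGe_sub_one (s.erase w) (by simp) _
  choose g hg1 hg2 using hex
  refine ⟨∑ w ∈ s, a w * g w, fun v hv => ?_⟩
  rw [← Finset.add_sum_erase _ _ hv,
    show a v * g v + ∑ w ∈ s.erase v, a w * g w - a v
      = a v * (g v - 1) + ∑ w ∈ s.erase v, a w * g w by ring]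
  refine OrdGe.add ?_ (OrdGe.sum fun w hw => ?_)
  · refine ((ordGe_ord (a v)).mul (hg1 v)).mono ?_
    have := hMb v hv v hv
    have := neg_abs_le (v.ord (a v))
    have := le_abs_self (n v)
    have := Int.self_le_toNat M
    omega
  · obtain ⟨hwv, hws⟩ := Finset.mem_erase.1 hw
    refine ((ordGe_ord (a w)).mul (hg2 w v (Finset.mem_erase.2 ⟨hwv.symm, hv⟩))).mono ?_
    have := hMb v hv w hws
    have := neg_abs_le (v.ord (a w))
    have := le_abs_self (n v)
    have := Int.self_le_toNat M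
    omega

/-- An element with prescribed orders at finitely many places. -/
theorem exists_forall_ord_eq (s : Finset (Place K F)) (n : Place K F → ℤ) :
    ∃ f : F, f ≠ 0 ∧ ∀ v ∈ s, v.ord f = n v := by
  classical
  rcases s.eq_empty_or_nonempty with rfl | ⟨v₀, hv₀⟩
  · exact ⟨1, one_ne_zero, by simp⟩
  choose a ha using fun v : Place K F => exists_ord_eq v (n v)
  obtain ⟨f, hf⟩ := exists_ordGe_sub s a (fun v => n v + 1)
  have key : ∀ v ∈ s, f ≠ 0 ∧ v.ord f = n v := fun v hv => by
    have h := ord_eq_of_ordGe_sub (hf v hv) (ha v).1 (by rw [(ha v).2]; omega)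
    exact ⟨h.1, h.2.trans (ha v).2⟩
  exact ⟨f, (key v₀ hv₀).1, fun v hv => (key v hv).2⟩

end FLTAgent.FunctionField
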