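import Fermat.Agent.FunctionField.Independence
import Fermat.Agent.FunctionField.Approximation
import Mathlib.RingTheory.AlgebraicIndependent.Transcendental
import Mathlib.RingTheory.AlgebraicIndependent.AlgebraicClosure
import Mathlib.RingTheory.Valuation.LocalSubring

/-!
# Function fields in one variable: places exist, have finite degree, zeros are finite
-/

set_option autoImplicit false

noncomputable section

open AlgebraicCurve Polynomial IntermediateField

namespace FLTAgent.FunctionField

/-- `F` is a function field in one variable over `K`. -/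
class IsFunctionField (K F : Type*) [Field K] [Field F] [Algebra K F] : Prop where
  exists_finite_adjoin : ∃ x : F, Transcendental K x ∧ FiniteDimensional K⟮x⟯ F

variable {K F : Type*} [Field K] [Field F] [Algebra K F]

theorem isAlgebraic_adjoin_symm {x t : F} (ht : Transcendental K t)
    (h : IsAlgebraic K⟮x⟯ t) : IsAlgebraic K⟮t⟯ x := by
  by_contra hx
  have hx' : Transcendental (Algebra.adjoin K (Set.range ![t])) x := by
    rw [Matrix.range_cons, Matrix.range_empty, Set.union_empty]
    exact IntermediateField.transcendental_adjoin_iff.1 hx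
  have hind := (AlgebraicIndependent.option_iff_transcendental
    ((algebraicIndependent_unique_type_iff (x := ![t])).2 (by simpa using ht)) x).2 hx'
  have hxK : Transcendental K x := hind.transcendental none
  -- exchange the two variables
  let σ : Option (Fin 1) → Option (Fin 1) := fun o => o.elim (some 0) (fun _ => none)
  have hσ : Function.Injective σ := by
    rintro (_ | a) (_ | b) hab <;> first | rfl | exact congrArg some (Subsingleton.elim a b) | simp [σ] at hab
  have hswap : AlgebraicIndependent K (fun o : Option (Fin 1) => o.elim t ![x]) := by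
    have := hind.comp σ hσ
    convert this using 1
    funext o
    rcases o with _ | a
    · rfl
    · rw [Subsingleton.elim a 0]; rfl
  have h1 := (AlgebraicIndependent.option_iff_transcendental
    ((algebraicIndependent_unique_type_iff (x := ![x])).2 (by simpa using hxK)) t).1 hswap
  rw [Matrix.range_cons, Matrix.range_empty, Set.union_empty] at h1
  exact h1 (IntermediateField.isAlgebraic_adjoin_iff.1 h)

section

variable [hF : IsFunctionField K F]

/-- A function field is finite over `K⟮t⟯` for every transcendental `t`. -/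
theorem finiteDimensional_adjoin_of_transcendental {t : F} (ht : Transcendental K t) :
    FiniteDimensional K⟮t⟯ F := by
  classical
  obtain ⟨x, -, hfin⟩ := hF.exists_finite_adjoin
  have := hfin
  have hxt : IsAlgebraic K⟮t⟯ x := isAlgebraic_adjoin_symm ht (Algebra.IsAlgebraic.isAlgebraic t)
  let b := Module.finBasis K⟮x⟯ F
  set E := K⟮t⟯⟮x⟯ with hE
  have : FiniteDimensional K⟮t⟯ E :=
    IntermediateField.adjoin.finiteDimensional hxt.isIntegral
  have hle : K⟮x⟯ ≤ E.restrictScalars K :=
    adjoin_simple_le_iff.2 (mem_adjoin_simple_self _ x)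
  have : Module.Finite E F := by
    refine ⟨⟨Finset.univ.image b, ?_⟩⟩
    rw [eq_top_iff]
    intro f _
    rw [← b.sum_repr f, Finset.coe_image, Finset.coe_univ, Set.image_univ]
    exact Submodule.sum_mem _ fun i _ => Submodule.smul_mem _
      (⟨(b.repr f i : F), hle (b.repr f i).2⟩ : E) (Submodule.subset_span ⟨i, rfl⟩)
  exact Module.Finite.trans E F

end

theorem ne_zero_of_transcendental {x : F} (hx : Transcendental K x) : x ≠ 0 := fun h =>
  hx (h ▸ isAlgebraic_zero)

theorem transcendental_of_ne_zero_of_mem_nonunits {A : ValuationSubring F}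
    (hK : ∀ a : K, algebraMap K F a ∈ A) {x : F} (hx0 : x ≠ 0) (hx : x ∈ A.nonunits) :
    Transcendental K x := by
  intro halg
  have hint : IsIntegral K x := halg.isIntegral
  have hinv : x⁻¹ ∈ Algebra.adjoin K {x} := by
    rw [← IntermediateField.adjoin_simple_toSubalgebra_of_isAlgebraic halg]
    exact (IntermediateField.mem_toSubalgebra _ _).2 (inv_mem (mem_adjoin_simple_self K x))
  rw [Algebra.adjoin_singleton_eq_range_aeval, AlgHom.mem_range] at hinv
  obtain ⟨p, hp⟩ := hinv
  have hxA : x ∈ A := A.nonunits_subset hx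
  have : x⁻¹ ∈ A := by
    rw [← hp, aeval_eq_sum_range]
    refine sum_mem fun i _ => ?_
    rw [Algebra.smul_def]
    exact mul_mem (hK _) (pow_mem hxA i)
  rw [← inv_inv x, ValuationSubring.inv_mem_nonunits_iff] at hx
  rcases hx with h | h
  · exact inv_ne_zero hx0 h
  · exact h this

theorem valuation_aeval_le_one {A : ValuationSubring F} (hK : ∀ a : K, algebraMap K F a ∈ A)
    {x : F} (hx : x ∈ A) (p : K[X]) : A.valuation (aeval x p) ≤ 1 := by
  rw [A.valuation_le_one_iff, aeval_eq_sum_range]
  refine sum_mem fun i _ => ?_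
  rw [Algebra.smul_def]
  exact mul_mem (hK _) (pow_mem hx i)

/-- Values strictly between that of `x` and one give elements independent over `K⟮x⟯`. -/
theorem card_le_of_strictMono_valuation {A : ValuationSubring F}
    (hK : ∀ a : K, algebraMap K F a ∈ A) {x : F} (hxt : Transcendental K x)
    [FiniteDimensional K⟮x⟯ F] {n : ℕ} (u : Fin n → F)
    (hmono : StrictMono fun i => A.valuation (u i))
    (hge : ∀ i, A.valuation x ≤ A.valuation (u i)) (hlt : ∀ i, A.valuation (u i) < 1) :
    n ≤ Module.finrank K⟮x⟯ F := by
  classical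
  rcases Nat.eq_zero_or_pos n with rfl | hn
  · exact Nat.zero_le _
  have hx1 : A.valuation x < 1 := (hge ⟨0, hn⟩).trans_lt (hlt ⟨0, hn⟩)
  have hx0 : x ≠ 0 := fun h => hxt (h ▸ isAlgebraic_zero)
  have hxA : x ∈ A := (A.valuation_le_one_iff x).1 hx1.le
  have hcoeff : ∀ p : K[X], p.coeff 0 ≠ 0 → A.valuation (aeval x p) = 1 := by
    intro p hp
    have h1 : aeval x p = algebraMap K F (p.coeff 0) + x * aeval x p.divX := by
      conv_lhs => rw [← divX_mul_X_add p]
      simp only [map_add, map_mul, aeval_X, aeval_C]; ring
    have hc : A.valuation (algebraMap K F (p.coeff 0)) = 1 := by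
      refine le_antisymm ((A.valuation_le_one_iff _).2 (hK _)) ?_
      have h2 := (A.valuation_le_one_iff _).2 (hK (p.coeff 0)⁻¹)
      rw [map_inv₀, map_inv₀] at h2
      exact (inv_le_one₀ (zero_lt_iff.2 ((Valuation.ne_zero_iff _).2 (by simpa using hp)))).1 h2
    rw [h1, Valuation.map_add_eq_of_lt_left, hc]
    rw [hc, map_mul]
    exact mul_lt_one_of_lt_of_le hx1 (valuation_aeval_le_one hK hxA _)
  have hli : LinearIndependent K⟮x⟯ u := by
    refine linearIndependent_adjoin_of_polynomial fun s p hsum i hi => ?_
    suffices ∀ d : ℕ, ∀ q : Fin n → K[X], (∀ i ∈ s, (q i).natDegree < d) →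
        ∑ i ∈ s, aeval x (q i) * u i = 0 → ∀ i ∈ s, q i = 0 from
      this ((s.sup fun i => (p i).natDegree) + 1) p
        (fun i hi => Nat.lt_succ_of_le (Finset.le_sup (f := fun i => (p i).natDegree) hi))
        hsum i hi
    intro d
    induction d with
    | zero => intro q hq _ i hi; exact absurd (hq i hi) (Nat.not_lt_zero _)
    | succ d IH =>
    intro q hq hsum
    by_cases hall : ∀ i ∈ s, (q i).coeff 0 = 0
    · have hX : ∀ i ∈ s, q i = (q i).divX * X := fun i hi => by
        conv_lhs => rw [← divX_mul_X_add (q i)]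
        simp [hall i hi]
      have hsum' : ∑ i ∈ s, aeval x (q i).divX * u i = 0 := by
        have h2 : x * ∑ i ∈ s, aeval x (q i).divX * u i = 0 := by
          rw [Finset.mul_sum, ← hsum]
          refine Finset.sum_congr rfl fun i hi => ?_
          conv_rhs => rw [hX i hi]
          simp [mul_comm, mul_left_comm]
        simpa [hx0] using h2
      intro i hi
      rw [hX i hi]
      by_cases hd : d = 0
      · have h0 : (q i).natDegree = 0 := by have := hq i hi; omega
        rw [eq_C_of_natDegree_eq_zero h0, hall i hi]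
        simp
      rw [IH (fun i => (q i).divX) (fun i hi => by
        rw [natDegree_divX_eq_natDegree_tsub_one]; have := hq i hi; omega) hsum' i hi, zero_mul]
    · push Not at hall
      set T := s.filter fun i => (q i).coeff 0 ≠ 0 with hT
      have hTne : T.Nonempty := by
        obtain ⟨i, hi, h⟩ := hall
        exact ⟨i, Finset.mem_filter.2 ⟨hi, h⟩⟩
      obtain ⟨hjs, hj⟩ := Finset.mem_filter.1 (T.max'_mem hTne)
      set j := T.max' hTne
      exfalso
      have hval : A.valuation (aeval x (q j) * u j) = A.valuation (u j) := by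
        rw [map_mul, hcoeff _ hj, one_mul]
      have hujne : A.valuation (u j) ≠ 0 :=
        (zero_lt_iff.2 ((Valuation.ne_zero_iff _).2 hx0) |>.trans_le (hge j)).ne'
      have hlt' : A.valuation (∑ i ∈ s.erase j, aeval x (q i) * u i) < A.valuation (u j) := by
        refine Valuation.map_sum_lt _ hujne fun i hi => ?_
        obtain ⟨hij, his⟩ := Finset.mem_erase.1 hi
        rw [map_mul]
        rcases lt_or_gt_of_ne hij with h | h
        · exact lt_of_le_of_lt (mul_le_of_le_one_left' (valuation_aeval_le_one hK hxA _)) (hmono h)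
        · have h0 : (q i).coeff 0 = 0 := by
            by_contra h0
            exact not_lt.2 (T.le_max' i (Finset.mem_filter.2 ⟨his, h0⟩)) h
          have hq' : aeval x (q i) = aeval x (q i).divX * x := by
            conv_lhs => rw [← divX_mul_X_add (q i)]
            simp [h0]
          rw [hq', map_mul, mul_assoc]
          refine lt_of_le_of_lt (mul_le_of_le_one_left' (valuation_aeval_le_one hK hxA _)) ?_
          refine lt_of_lt_of_le ?_ (hge j)
          exact mul_lt_of_lt_one_right (zero_lt_iff.2 ((Valuation.ne_zero_iff _).2 hx0)) (hlt i)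
      rw [← hval] at hlt'
      have := Valuation.map_add_eq_of_lt_left _ hlt'
      rw [Finset.add_sum_erase _ (fun i => aeval x (q i) * u i) hjs, hsum, map_zero] at this
      exact hujne (hval ▸ this.symm)
  simpa using hli.fintype_card_le_finrank

variable [hF : IsFunctionField K F]

/-- A nontrivial valuation ring of a function field containing the constants is a PID. -/
theorem isPrincipalIdealRing_of_algebraMap_mem {A : ValuationSubring F}
    (hK : ∀ a : K, algebraMap K F a ∈ A) : IsPrincipalIdealRing A := by
  classical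
  refine ⟨fun I => ?_⟩
  rcases eq_or_ne I ⊥ with rfl | hI
  · exact bot_isPrincipal
  rcases eq_or_ne I ⊤ with rfl | hI'
  · exact top_isPrincipal
  obtain ⟨a, haI, ha0⟩ := Submodule.exists_mem_ne_zero_of_ne_bot hI
  have ha0' : (a : F) ≠ 0 := by simpa using ha0
  have hlt : ∀ b : A, b ∈ I → A.valuation (b : F) < 1 := fun b hb =>
    (A.valuation_lt_one_iff b).1 fun hu => hI' (Ideal.eq_top_of_isUnit_mem _ hb hu)
  have hat : Transcendental K (a : F) := transcendental_of_ne_zero_of_mem_nonunits hK ha0'
    (A.mem_nonunits_iff.2 (hlt a haI))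
  have := finiteDimensional_adjoin_of_transcendental hat
  set V : Set A.ValueGroup := {g | ∃ b : A, b ∈ I ∧ A.valuation (b : F) = g ∧
    A.valuation (a : F) ≤ g} with hV
  have hVfin : V.Finite := by
    by_contra hinf
    obtain ⟨s, hsV, hcard⟩ :=
      Set.Infinite.exists_subset_card_eq hinf (Module.finrank K⟮(a : F)⟯ F + 1)
    set o := s.orderEmbOfFin hcard
    choose b hb1 hb2 hb3 using fun i => hsV (s.orderEmbOfFin_mem hcard i)
    have hle := card_le_of_strictMono_valuation hK hat
      (fun i => ((b i : A) : F)) (fun i j hij => by simpa [hb2] using o.strictMono hij)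
      (fun i => by simpa [hb2] using hb3 i) (fun i => hlt _ (hb1 i))
    omega
  obtain ⟨g, ⟨b, hbI, hbg, hbV⟩, hmax⟩ :=
    Set.exists_max_image V id hVfin ⟨_, a, haI, rfl, le_rfl⟩
  refine ⟨⟨b, le_antisymm (fun c hc => ?_) ((Submodule.span_singleton_le_iff_mem b I).2 hbI)⟩⟩
  rw [Submodule.mem_span_singleton]
  have hcb : A.valuation (c : F) ≤ A.valuation (b : F) := by
    rcases le_total (A.valuation (a : F)) (A.valuation (c : F)) with h | h
    · rw [hbg]; exact hmax _ ⟨c, hc, rfl, h⟩
    · rw [hbg]; exact h.trans hbV
  obtain ⟨d, hd⟩ := (A.valuation_le_iff _ _).1 hcb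
  exact ⟨d, Subtype.ext hd⟩

/-- A nontrivial valuation ring containing the constants is a place. -/
def placeOfValuationSubring (A : ValuationSubring F) (hK : ∀ a : K, algebraMap K F a ∈ A)
    (hA : A ≠ ⊤) : Place K F :=
  ⟨A, hK, hA, isPrincipalIdealRing_of_algebraMap_mem hK⟩

@[simp] theorem placeOfValuationSubring_toValuationSubring (A : ValuationSubring F)
    (hK : ∀ a : K, algebraMap K F a ∈ A) (hA : A ≠ ⊤) :
    (placeOfValuationSubring A hK hA).toValuationSubring = A := rfl

/-- A transcendental element has a zero. -/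
theorem exists_place_ord_pos {x : F} (hx : Transcendental K x) :
    ∃ v : Place K F, 0 < v.ord x := by
  set R : Subring F := (Algebra.adjoin K {x}).toSubring with hR
  set xr : R := ⟨x, Algebra.self_mem_adjoin_singleton K x⟩ with hxr
  have hne : Ideal.span {xr} ≠ ⊤ := by
    rw [Ne, Ideal.span_singleton_eq_top]
    intro hu
    obtain ⟨⟨y, hy⟩, hxy⟩ := isUnit_iff_exists_inv.1 hu
    have hy' : y ∈ Algebra.adjoin K {x} := hy
    rw [Algebra.adjoin_singleton_eq_range_aeval, AlgHom.mem_range] at hy'
    obtain ⟨p, hp⟩ := hy'
    have hxy' : x * y = 1 := congrArg Subtype.val hxy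
    refine hx ⟨X * p - 1, fun h => ?_, by simp [hp, hxy']⟩
    have := congrArg (fun q : K[X] => q.coeff 0) h
    simp at this
  obtain ⟨A, hle, hsub⟩ := Ideal.image_subset_nonunits_valuationSubring _ hne
  have hK : ∀ a : K, algebraMap K F a ∈ A := fun a => hle (Subalgebra.algebraMap_mem _ a)
  have hxn : x ∈ A.nonunits := hsub ⟨xr, Ideal.mem_span_singleton_self _, rfl⟩
  have hx0 : x ≠ 0 := fun h => hx (h ▸ isAlgebraic_zero)
  have hA : A ≠ ⊤ := by
    intro htop
    rw [← inv_inv x, ValuationSubring.inv_mem_nonunits_iff, htop] at hxn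
    rcases hxn with h | h
    · exact inv_ne_zero hx0 h
    · exact h (ValuationSubring.mem_top _)
  exact ⟨placeOfValuationSubring A hK hA,
    (ordGe_one_iff_mem_nonunits (v := placeOfValuationSubring A hK hA)).2 hxn |>.le_ord hx0⟩

theorem exists_place : Nonempty (Place K F) := by
  obtain ⟨x, hx, -⟩ := hF.exists_finite_adjoin
  exact ⟨(exists_place_ord_pos hx).choose⟩

end FLTAgent.FunctionField
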