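import Fermat.Agent.FunctionField.Principal
import Fermat.Prelude.Def_AlgebraicCurve_Correspondence

/-!
# Ways of recognising function fields; maps between function fields are finite
-/

set_option autoImplicit false

noncomputable section

open AlgebraicCurve Polynomial IntermediateField

namespace FLTAgent.FunctionField

variable {K F : Type*} [Field K] [Field F] [Algebra K F]

theorem transcendental_map {F' : Type*} [Field F'] [Algebra K F'] (φ : F →ₐ[K] F') {x : F}
    (hx : Transcendental K x) : Transcendental K (φ x) := fun h =>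
  hx ((isAlgebraic_algHom_iff φ φ.toRingHom.injective).1 h)

theorem adjoin_simple_le_fieldRange {F' : Type*} [Field F'] [Algebra K F'] (φ : F →ₐ[K] F')
    (x : F) : K⟮φ x⟯ ≤ φ.fieldRange :=
  adjoin_simple_le_iff.2 ⟨x, rfl⟩

section Extension

variable {F' : Type*} [Field F'] [Algebra K F'] [Algebra F F'] [IsScalarTower K F F']

/-- A finite extension of a function field is a function field. -/
theorem IsFunctionField.of_finite [h : IsFunctionField K F] [FiniteDimensional F F'] :
    IsFunctionField K F' := by
  classical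
  obtain ⟨x, hx, hfin⟩ := h.exists_finite_adjoin
  set φ := IsScalarTower.toAlgHom K F F' with hφ
  refine ⟨φ x, transcendental_map φ hx, ?_⟩
  let b := Module.finBasis K⟮x⟯ F
  let c := Module.finBasis F F'
  refine ⟨⟨(Finset.univ ×ˢ Finset.univ).image fun p => φ (b p.1) * c p.2, ?_⟩⟩
  rw [eq_top_iff]
  intro f _
  rw [← c.sum_repr f]
  refine Submodule.sum_mem _ fun j _ => ?_
  rw [← b.sum_repr (c.repr f j), Finset.sum_smul]
  refine Submodule.sum_mem _ fun i _ => ?_
  set a := b.repr (c.repr f j) i
  have hmap : K⟮φ x⟯ = K⟮x⟯.map φ := by rw [adjoin_map, Set.image_singleton]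
  have ha : φ (a : F) ∈ K⟮φ x⟯ := by rw [hmap]; exact ⟨a, a.2, rfl⟩
  have : (a • b i) • c j = (⟨φ a, ha⟩ : K⟮φ x⟯) • (φ (b i) * c j) := by
    show ((a : F) * b i) • c j = φ a * (φ (b i) * c j)
    rw [Algebra.smul_def, ← IsScalarTower.coe_toAlgHom' K F F', map_mul, mul_assoc]
  rw [this]
  exact Submodule.smul_mem _ _ (Submodule.subset_span
    (Finset.mem_coe.2 (Finset.mem_image.2 ⟨(i, j), by simp, rfl⟩)))

end Extension

/-- A generating set algebraic over a transcendental element makes a function field. -/
theorem IsFunctionField.of_adjoin {x : F} (hx : Transcendental K x) (S : Finset F)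
    (hS : ∀ y ∈ S, IsAlgebraic K⟮x⟯ y)
    (htop : IntermediateField.adjoin K (insert x (S : Set F)) = ⊤) : IsFunctionField K F := by
  refine ⟨x, hx, ?_⟩
  have hfin : FiniteDimensional K⟮x⟯ (IntermediateField.adjoin K⟮x⟯ (S : Set F)) :=
    IntermediateField.finiteDimensional_adjoin fun y hy => (hS y hy).isIntegral
  have htop' : IntermediateField.adjoin K⟮x⟯ (S : Set F) = ⊤ := by
    refine IntermediateField.restrictScalars_injective K ?_
    rw [IntermediateField.adjoin_adjoin_left, IntermediateField.restrictScalars_top,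
      Set.singleton_union]
    exact htop
  rw [htop'] at hfin
  exact Module.Finite.equiv IntermediateField.topEquiv.toLinearEquiv

/-- The field generated inside `L` by `x` and finitely many elements algebraic over `K⟮x⟯`. -/
theorem isFunctionField_adjoin_insert {L : Type*} [Field L] [Algebra K L] {x : L}
    (hx : Transcendental K x) (S : Finset L) (hS : ∀ y ∈ S, IsAlgebraic K⟮x⟯ y) :
    IsFunctionField K (IntermediateField.adjoin K (insert x (S : Set L))) := by
  classical
  set E := IntermediateField.adjoin K (insert x (S : Set L)) with hE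
  have hxE : x ∈ E := subset_adjoin _ _ (Set.mem_insert _ _)
  let xE : E := ⟨x, hxE⟩
  have hxt : Transcendental K xE := fun h => hx (h.algHom E.val)
  let fwd : K⟮xE⟯ →+* K⟮x⟯ := (E.val.toRingHom.comp K⟮xE⟯.val.toRingHom).codRestrict _
    fun a => by
      have h1 : K⟮x⟯ = K⟮xE⟯.map E.val := by rw [adjoin_map, Set.image_singleton]; rfl
      rw [h1]
      exact ⟨a, a.2, rfl⟩
  refine IsFunctionField.of_adjoin hxt (S.subtype (· ∈ E)) (fun y hy => ?_) ?_
  · obtain ⟨p, hp, hp0⟩ := hS y (Finset.mem_subtype.1 hy)
    have hsurj : Function.Surjective fwd := by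
      rintro ⟨a, ha⟩
      have h1 : K⟮x⟯ = K⟮xE⟯.map E.val := by rw [adjoin_map, Set.image_singleton]; rfl
      rw [h1] at ha
      obtain ⟨b, hb, rfl⟩ := ha
      exact ⟨⟨b, hb⟩, rfl⟩
    obtain ⟨q, rfl⟩ := Polynomial.map_surjective fwd hsurj p
    refine ⟨q, fun hq => hp (by simp [hq]), E.val.injective ?_⟩
    rw [map_zero, ← hp0, aeval_def, aeval_def, eval₂_map]
    exact hom_eval₂ q _ E.val.toRingHom y
  · refine IntermediateField.map_injective E.val ?_
    rw [adjoin_map, ← AlgHom.fieldRange_eq_map, fieldRange_val, Set.image_insert_eq]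
    conv_rhs => rw [hE]
    refine congrArg (IntermediateField.adjoin K) ?_
    refine congrArg (insert x) ?_
    ext y
    simp only [Set.mem_image, Finset.mem_coe, Finset.mem_subtype]
    exact ⟨fun ⟨z, hz, h⟩ => h ▸ hz,
      fun hy => ⟨⟨y, subset_adjoin _ _ (Set.mem_insert_of_mem _ hy)⟩, hy, rfl⟩⟩

/-- A subextension containing a transcendental element is a function field. -/
theorem IsFunctionField.of_algHom {F' : Type*} [Field F'] [Algebra K F'] [IsFunctionField K F']
    (φ : F →ₐ[K] F') {x : F} (hx : Transcendental K x) : IsFunctionField K F := by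
  have hfin := finiteDimensional_adjoin_of_transcendental (transcendental_map φ hx)
  have hmap : K⟮φ x⟯ = K⟮x⟯.map φ := by rw [adjoin_map, Set.image_singleton]
  refine ⟨x, hx, ?_⟩
  set m := Module.finrank K⟮φ x⟯ F'
  refine Module.rank_lt_aleph0_iff.1 (lt_of_le_of_lt (rank_le (n := m) fun s hs => ?_)
    Cardinal.natCast_lt_aleph0)
  have : LinearIndependent K⟮φ x⟯ (fun u : {u // u ∈ s} => φ (u : F)) := by
    rw [Fintype.linearIndependent_iff]
    intro g hg u
    choose a ha hag using fun u => show ((g u : K⟮φ x⟯) : F') ∈ K⟮x⟯.map φ from hmap ▸ (g u).2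
    have h0 : ∑ u, (⟨a u, ha u⟩ : K⟮x⟯) • (u : F) = 0 := by
      apply φ.toRingHom.injective
      rw [map_zero, ← hg, map_sum]
      refine Finset.sum_congr rfl fun u _ => ?_
      show φ (a u * (u : F)) = (g u : F') * φ u
      rw [map_mul]
      exact congrArg (· * φ (u : F)) (hag u)
    have := congrArg (fun z : K⟮x⟯ => φ (z : F)) (Fintype.linearIndependent_iff.1 hs _ h0 u)
    refine Subtype.ext ?_
    simpa using (hag u).symm.trans this
  simpa using this.fintype_card_le_finrank

theorem isFunctionField_of_le {L : Type*} [Field L] [Algebra K L] {E E' : IntermediateField K L}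
    (h : E ≤ E') [IsFunctionField K E'] {x : E} (hx : Transcendental K x) :
    IsFunctionField K E :=
  IsFunctionField.of_algHom (IntermediateField.inclusion h) hx

/-- A map of function fields is finite. -/
theorem finiteAlong_of_isFunctionField [hF : IsFunctionField K F] {F' : Type*} [Field F']
    [Algebra K F'] [IsFunctionField K F'] (φ : F →ₐ[K] F') : FiniteAlong K φ := by
  classical
  unfold FiniteAlong
  let := algebraAlong φ
  obtain ⟨x, hx, -⟩ := hF.exists_finite_adjoin
  have := finiteDimensional_adjoin_of_transcendental (transcendental_map φ hx)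
  let b := Module.finBasis K⟮φ x⟯ F'
  refine ⟨⟨Finset.univ.image b, ?_⟩⟩
  rw [eq_top_iff]
  intro f _
  rw [← b.sum_repr f]
  refine Submodule.sum_mem _ fun i _ => ?_
  obtain ⟨a, ha⟩ := adjoin_simple_le_fieldRange φ x (b.repr f i).2
  have : b.repr f i • b i = a • b i := by
    show (b.repr f i : F') * b i = φ a * b i
    exact congrArg (· * b i) ha.symm
  rw [this]
  exact Submodule.smul_mem _ _ (Submodule.subset_span
    (Finset.mem_coe.2 (Finset.mem_image_of_mem _ (Finset.mem_univ i))))

theorem isIntegral_of_finiteAlong {F' : Type*} [Field F'] [Algebra K F'] (φ : F →ₐ[K] F')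
    (h : FiniteAlong K φ) : φ.toRingHom.IsIntegral :=
  let := algebraAlong φ
  have : Module.Finite F F' := h
  (Algebra.IsIntegral.of_finite F F').1

theorem isIntegral_of_isFunctionField [IsFunctionField K F] {F' : Type*} [Field F']
    [Algebra K F'] [IsFunctionField K F'] (φ : F →ₐ[K] F') : φ.toRingHom.IsIntegral :=
  isIntegral_of_finiteAlong φ (finiteAlong_of_isFunctionField φ)

theorem separableAlong_of_charZero [CharZero K] {F' : Type*} [Field F'] [Algebra K F']
    (φ : F →ₐ[K] F') (h : FiniteAlong K φ) : SeparableAlong K φ := by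
  unfold SeparableAlong
  let := algebraAlong φ
  have : Module.Finite F F' := h
  have : CharZero F := charZero_of_injective_algebraMap (algebraMap K F).injective
  infer_instance

end FLTAgent.FunctionField
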