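import Fermat.Agent.FunctionField.Constructors
import Fermat.Agent.FunctionField.Riemann

/-!
# The fundamental identity `∑ e f = n` for a finite extension of function fields
-/

set_option autoImplicit false

noncomputable section

open AlgebraicCurve Polynomial IntermediateField

namespace FLTAgent.FunctionField

variable {K F F' : Type*} [Field K] [Field F] [Field F'] [Algebra K F] [Algebra K F']
  [Algebra F F'] [IsScalarTower K F F']

section Integral

variable [Algebra.IsIntegral F F']

theorem ordGe_map {v : Place K F} {w : Place K F'} (h : w.restrict F = v) {n : ℕ} {c : F}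
    (hc : OrdGe v n c) : OrdGe w ((w.ramificationIndex F : ℤ) * n) (algebraMap F F' c) := by
  rcases eq_or_ne c 0 with rfl | hc0
  · simp
  refine ordGe_of_le_ord ?_
  rw [w.ord_restrict, h]
  exact mul_le_mul_of_nonneg_left (hc.le_ord hc0) (Int.natCast_nonneg _)

theorem ord_map {v : Place K F} {w : Place K F'} (h : w.restrict F = v) (c : F) :
    w.ord (algebraMap F F' c) = (w.ramificationIndex F : ℤ) * v.ord c := by
  rw [w.ord_restrict, h]

end Integral

variable [IsFunctionField K F] [IsFunctionField K F'] [FiniteDimensional F F']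

omit [IsFunctionField K F] in
theorem finite_residueField_restrict (w : Place K F') :
    Module.Finite (w.restrict F).ResidueField w.ResidueField :=
  have := finite_residueField w
  Module.Finite.of_restrictScalars_finite K (w.restrict F).ResidueField w.ResidueField

omit [IsFunctionField K F] in
theorem inertiaDeg_pos (w : Place K F') : 0 < w.inertiaDeg F :=
  have := finite_residueField_restrict (F := F) w
  Module.finrank_pos

/-- An index set for the adapted basis over the place `v`. -/
abbrev AdaptedIndex (v : Place K F) : Type _ :=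
  Σ w : {w : Place K F' // w ∈ v.fiber F'},
    Fin (w.1.ramificationIndex F) × Fin (w.1.inertiaDeg F)

/-- Elements used to build an integral basis above `v`. -/
structure Adapted (v : Place K F) where
  /-- uniformisers -/
  t : {w : Place K F' // w ∈ v.fiber F'} → F'
  /-- residue lifts -/
  z : ∀ w : {w : Place K F' // w ∈ v.fiber F'}, Fin (w.1.inertiaDeg F) → F'
  t_ne_zero : ∀ w, t w ≠ 0
  ord_t_self : ∀ w : {w : Place K F' // w ∈ v.fiber F'}, w.1.ord (t w) = 1
  ord_t_of_ne : ∀ w k : {w : Place K F' // w ∈ v.fiber F'}, k ≠ w → k.1.ord (t w) = 0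
  ordGe_z : ∀ (w : {w : Place K F' // w ∈ v.fiber F'}) j, OrdGe w.1 0 (z w j)
  ordGe_z_of_ne : ∀ (w : {w : Place K F' // w ∈ v.fiber F'}) j
    (k : {w : Place K F' // w ∈ v.fiber F'}),
    k ≠ w → OrdGe k.1 (k.1.ramificationIndex F) (z w j)
  z_indep : ∀ (w : {w : Place K F' // w ∈ v.fiber F'}) (d : Fin (w.1.inertiaDeg F) → v.toValuationSubring),
    OrdGe w.1 1 (∑ j, algebraMap F F' (d j : F) * z w j) → ∀ j, OrdGe v 1 (d j : F)

omit [IsFunctionField K F] in
theorem exists_adapted (v : Place K F) : Nonempty (Adapted (F' := F') v) := by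
  classical
  have hex : ∀ w : {w : Place K F' // w ∈ v.fiber F'}, ∃ t : F',
      t ≠ 0 ∧ ∀ k ∈ v.fiber F', k.ord t = if k = w.1 then 1 else 0 :=
    fun w => exists_forall_ord_eq _ _
  choose t ht0 ht using hex
  choose z0 hz0 using fun (w : {w : Place K F' // w ∈ v.fiber F'}) (j : Fin (w.1.inertiaDeg F)) =>
    haveI := finite_residueField_restrict (F := F) w.1
    IsLocalRing.residue_surjective (R := w.1.toValuationSubring)
      ((Module.finBasis (w.1.restrict F).ResidueField w.1.ResidueField) j)
  choose z hz using fun (w : {w : Place K F' // w ∈ v.fiber F'}) (j : Fin (w.1.inertiaDeg F)) =>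
    exists_ordGe_sub (v.fiber F') (fun k => if k = w.1 then (z0 w j : F') else 0)
      (fun k => if k = w.1 then 1 else (k.ramificationIndex F : ℤ))
  have hzs : ∀ w j, OrdGe w.1 1 (z w j - z0 w j) := fun w j => by
    simpa using hz w j w.1 w.2
  refine ⟨⟨t, z, ht0, fun w => by rw [ht w w.1 w.2, if_pos rfl],
    fun w k hk => by rw [ht w k.1 k.2, if_neg (Subtype.coe_ne_coe.2 hk)],
    fun w j => ?_, fun w j k hk => ?_, fun w d hd j => ?_⟩⟩
  · have h1 : OrdGe w.1 0 (z0 w j : F') := mem_iff_ordGe_zero.1 (z0 w j).2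
    simpa using ((hzs w j).mono zero_le_one).add h1
  · simpa [Subtype.coe_ne_coe.2 hk] using hz w j k.1 k.2
  · have hw : w.1.restrict F = v := Place.mem_fiber.1 w.2
    let d' : Fin (w.1.inertiaDeg F) → (w.1.restrict F).toValuationSubring := fun j =>
      ⟨(d j : F), by rw [hw]; exact (d j).2⟩
    have h1 : OrdGe w.1 1 (∑ j, algebraMap F F' (d j : F) * (z0 w j : F')) := by
      have h2 : OrdGe w.1 1 (∑ j, algebraMap F F' (d j : F) * (z w j - z0 w j)) :=
        OrdGe.sum fun j _ => by
          simpa using (ordGe_map hw (n := 0) (mem_iff_ordGe_zero.1 (d j).2)).mul (hzs w j)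
      simp only [mul_sub, Finset.sum_sub_distrib] at h2
      simpa using hd.sub h2
    have h3 : IsLocalRing.residue w.1.toValuationSubring
        (∑ j, Place.restrictInclusion F w.1 (d' j) * z0 w j) = 0 := by
      rw [residue_eq_zero_iff]
      rw [AddSubmonoidClass.coe_finsetSum]
      exact h1
    have := finite_residueField_restrict (F := F) w.1
    have h4 := Fintype.linearIndependent_iff.1
      (Module.finBasis (w.1.restrict F).ResidueField w.1.ResidueField).linearIndependent
      (fun j => IsLocalRing.residue _ (d' j)) (by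
        refine Eq.trans ?_ h3
        rw [map_sum]
        refine Finset.sum_congr rfl fun j _ => ?_
        rw [map_mul, hz0, Algebra.smul_def, Place.algebraMap_residueField_eq,
          Place.restrictResidueMap_residue]) j
    have h5 : OrdGe (w.1.restrict F) 1 (d j : F) := residue_eq_zero_iff.1 h4
    rwa [hw] at h5

variable {v : Place K F} (A : Adapted (F' := F') v)

/-- The adapted family. -/
def Adapted.elem (b : AdaptedIndex (F' := F') v) : F' :=
  A.t b.1 ^ (b.2.1 : ℕ) * A.z b.1 b.2.2

omit [IsFunctionField K F] in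
theorem Adapted.coeff_mem (c : AdaptedIndex (F' := F') v → F) (hc : ∀ b, OrdGe v 0 (c b))
    (h : ∀ k : {w : Place K F' // w ∈ v.fiber F'},
      OrdGe k.1 (k.1.ramificationIndex F) (∑ b, algebraMap F F' (c b) * A.elem b))
    (b : AdaptedIndex (F' := F') v) : OrdGe v 1 (c b) := by
  have H := coeff_mem_of_ordGe (R := v.toValuationSubring)
    ((algebraMap F F').comp v.toValuationSubring.subtype)
    {r : v.toValuationSubring | OrdGe v 1 (r : F)}
    (ι := {w : Place K F' // w ∈ v.fiber F'}) (J := fun w => Fin (w.1.inertiaDeg F))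
    (fun w => w.1) (fun w => w.1.ramificationIndex F) A.t A.z ?hR ?hP
    (fun w => ⟨A.t_ne_zero w, A.ord_t_self w⟩) ?ht'
    A.ordGe_z A.ordGe_z_of_ne ?hind
    (fun i a j => ⟨c ⟨i, a, j⟩, mem_iff_ordGe_zero.2 (hc _)⟩) ?h
  · exact H b.1 b.2.1 b.2.2
  case hR =>
    intro w r
    have hr : OrdGe v (0 : ℕ) (r : F) := mem_iff_ordGe_zero.1 r.2
    have h0 := ordGe_map (Place.mem_fiber.1 w.2) hr
    rw [Nat.cast_zero, mul_zero] at h0
    exact h0
  case hP =>
    intro w r hr
    have hr' : OrdGe v (1 : ℕ) (r : F) := hr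
    have h0 := ordGe_map (Place.mem_fiber.1 w.2) hr'
    rw [Nat.cast_one, mul_one] at h0
    exact h0
  case ht' =>
    intro w k hk
    exact ordGe_of_le_ord (by rw [A.ord_t_of_ne w k hk])
  case hind =>
    intro w d hd j
    exact A.z_indep w d hd j
  case h =>
    intro k
    have := h k
    rw [Fintype.sum_sigma] at this
    simpa [Fintype.sum_prod_type, Adapted.elem] using this

omit [IsFunctionField K F] in
theorem Adapted.linearIndependent : LinearIndependent F A.elem := by
  classical
  rw [Fintype.linearIndependent_iff]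
  intro c hc
  by_contra! hne
  obtain ⟨b1, hb1⟩ := hne
  obtain ⟨b0, hb0, hmin⟩ := Finset.exists_min_image (Finset.univ.filter fun b => c b ≠ 0)
    (fun b => v.ord (c b)) ⟨b1, by simp [hb1]⟩
  have hb0' : c b0 ≠ 0 := (Finset.mem_filter.1 hb0).2
  have := A.coeff_mem (fun b => c b / c b0) (fun b => ?_) (fun k => ?_) b0
  · rw [div_self hb0'] at this
    have h := this.le_ord one_ne_zero
    simp at h
  · rcases eq_or_ne (c b) 0 with h0 | h0
    · simp [h0]
    · refine ordGe_of_le_ord ?_
      rw [ord_div h0 hb0']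
      have := hmin b (by simp [h0])
      omega
  · have : ∑ b, algebraMap F F' (c b / c b0) * A.elem b = 0 := by
      rw [← mul_zero (algebraMap F F' (c b0))⁻¹, ← hc, Finset.mul_sum]
      refine Finset.sum_congr rfl fun b _ => ?_
      rw [map_div₀, Algebra.smul_def]
      ring
    rw [this]
    exact ordGe_zero _

omit [IsFunctionField K F] in
theorem card_adaptedIndex (v : Place K F) :
    Fintype.card (AdaptedIndex (F' := F') v)
      = ∑ w ∈ v.fiber F', w.ramificationIndex F * w.inertiaDeg F := by
  simp only [Fintype.card_sigma, Fintype.card_prod, Fintype.card_fin]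
  exact Finset.sum_coe_sort (v.fiber F') (fun w => w.ramificationIndex F * w.inertiaDeg F)

omit [IsFunctionField K F] [IsFunctionField K F'] in
theorem finrank_adjoin_map {x : F} :
    Module.finrank K⟮algebraMap F F' x⟯ F'
      = Module.finrank K⟮x⟯ F * Module.finrank F F' := by
  have hmap : K⟮x⟯.map (IsScalarTower.toAlgHom K F F') = K⟮algebraMap F F' x⟯ := by
    rw [adjoin_map, Set.image_singleton]
    rfl
  let e : K⟮x⟯ ≃ₐ[K] K⟮algebraMap F F' x⟯ :=
    (K⟮x⟯.equivMap (IsScalarTower.toAlgHom K F F')).trans (equivOfEq hmap)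
  rw [Module.finrank_mul_finrank K⟮x⟯ F F']
  refine (Algebra.finrank_eq_of_equiv_equiv e.toRingEquiv (RingEquiv.refl F') ?_).symm
  ext a
  rfl

/-- `∑ e f = n` above every place. -/
theorem sum_ramificationIndex_mul_inertiaDeg_eq (v : Place K F) :
    ∑ w ∈ v.fiber F', w.ramificationIndex F * w.inertiaDeg F = Module.finrank F F' := by
  classical
  obtain ⟨f, hf, hfv, hfo⟩ := exists_ord_neg_forall_nonneg v
  obtain ⟨x, hx, hxv, hxo⟩ : ∃ x : F, x ≠ 0 ∧ 0 < v.ord x ∧ ∀ u : Place K F, u ≠ v → u.ord x ≤ 0 :=
    ⟨f⁻¹, inv_ne_zero hf, by rw [v.ord_inv]; omega,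
      fun u hu => by rw [u.ord_inv]; have := hfo u hu; omega⟩
  have hxt : Transcendental K x := transcendental_of_ord_ne_zero hxv.ne'
  have hxt' : Transcendental K (algebraMap F F' x) :=
    transcendental_map (IsScalarTower.toAlgHom K F F') hxt
  have hF : Divisor.degree (zeroDivisor (K := K) x) = v.ord x * v.deg := by
    have : zeroDivisor (K := K) x = Finsupp.single v (v.ord x) := by
      ext u
      rw [zeroDivisor_apply]
      rcases eq_or_ne u v with rfl | hu
      · simp [hxv.le]
      · simp [Finsupp.single_eq_of_ne hu, hxo u hu]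
    rw [this, Divisor.degree_single]
  have hF' : Divisor.degree (zeroDivisor (K := K) (algebraMap F F' x))
      = (v.ord x * v.deg) *
        ((∑ w ∈ v.fiber F', w.ramificationIndex F * w.inertiaDeg F : ℕ) : ℤ) := by
    rw [degree_eq_sum, Finset.sum_subset (s₂ := v.fiber F'), Nat.cast_sum, Finset.mul_sum]
    · refine Finset.sum_congr rfl fun w hw => ?_
      have hw' := Place.mem_fiber.1 hw
      have hd := w.deg_restrict_mul_inertiaDeg (F := F)
      rw [hw'] at hd
      rw [zeroDivisor_apply, ord_map hw', max_eq_left (mul_nonneg (Int.natCast_nonneg _) hxv.le),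
        ← hd]
      push_cast
      ring
    · intro w hw
      rw [Finsupp.mem_support_iff, zeroDivisor_apply] at hw
      rw [Place.mem_fiber]
      by_contra hne
      have h1 := hxo _ hne
      rw [w.ord_restrict] at hw
      exact hw (max_eq_right (mul_nonpos_of_nonneg_of_nonpos (Int.natCast_nonneg _) h1))
    · intro w _ hw
      rw [Finsupp.notMem_support_iff.1 hw, zero_mul]
  rw [degree_zeroDivisor hxt', finrank_adjoin_map, Nat.cast_mul, ← degree_zeroDivisor hxt, hF]
    at hF'
  have hne : v.ord x * (v.deg : ℤ) ≠ 0 :=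
    mul_ne_zero hxv.ne' (Nat.cast_ne_zero.2 (deg_pos v).ne')
  exact_mod_cast (mul_left_cancel₀ hne hF').symm

instance sumRamificationInertia : SumRamificationInertia K F F' :=
  ⟨fun v => by exact_mod_cast sum_ramificationIndex_mul_inertiaDeg_eq (F' := F') v⟩

theorem fiber_nonempty (v : Place K F) : (v.fiber F').Nonempty := by
  by_contra h
  have := sum_ramificationIndex_mul_inertiaDeg_eq (F' := F') v
  rw [Finset.not_nonempty_iff_eq_empty.1 h, Finset.sum_empty] at this
  exact (Module.finrank_pos (R := F) (M := F')).ne this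

theorem exists_restrict_eq (v : Place K F) : ∃ w : Place K F', w.restrict F = v :=
  let ⟨w, hw⟩ := fiber_nonempty (F' := F') v
  ⟨w, Place.mem_fiber.1 hw⟩

theorem sum_ramificationIndex_eq_finrank [IsAlgClosed K] (v : Place K F) :
    ∑ w ∈ v.fiber F', w.ramificationIndex F = Module.finrank F F' := by
  rw [← sum_ramificationIndex_mul_inertiaDeg_eq (F' := F') v]
  refine Finset.sum_congr rfl fun w _ => ?_
  have h := w.deg_restrict_mul_inertiaDeg (F := F)
  rw [deg_eq_one, deg_eq_one, one_mul] at h
  rw [h, mul_one]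

end FLTAgent.FunctionField
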