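import Fermat.Agent.FunctionField.PlaceBasic
import Mathlib.FieldTheory.IntermediateField.Adjoin.Basic

/-!
# Independence of uniformiser powers times residue lifts

The engine behind the inequality "sum of `e * f` is at most the degree" and behind the bases
of semilocal integral closures.
-/

set_option autoImplicit false

noncomputable section

open AlgebraicCurve Polynomial IntermediateField

namespace FLTAgent.FunctionField

variable {K F : Type*} [Field K] [Field F] [Algebra K F]

/-- The engine: finitely many places `w i`, elements `t i` of order one at `w i`,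
`z i j` integral at `w i`, vanishing to high order at the other places, independent at `w i`
over the coefficient ring `R` modulo `P`.  A combination of the products `t i ^ a * z i j`
(`a < e i`) vanishing to order `e i` at every `w i` has all its coefficients in `P`. -/
theorem coeff_mem_of_ordGe {R : Type*} [CommRing R] (φ : R →+* F) (P : Set R)
    {ι : Type*} [Fintype ι] {J : ι → Type*} [∀ i, Fintype (J i)]
    (w : ι → Place K F) (e : ι → ℕ) (t : ι → F) (z : ∀ i, J i → F)
    (hR : ∀ i c, OrdGe (w i) 0 (φ c))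
    (hP : ∀ i, ∀ c ∈ P, OrdGe (w i) (e i) (φ c))
    (ht : ∀ i, t i ≠ 0 ∧ (w i).ord (t i) = 1)
    (ht' : ∀ i k, k ≠ i → OrdGe (w k) 0 (t i))
    (hz : ∀ i j, OrdGe (w i) 0 (z i j))
    (hz' : ∀ i j k, k ≠ i → OrdGe (w k) (e k) (z i j))
    (hind : ∀ i (d : J i → R), OrdGe (w i) 1 (∑ j, φ (d j) * z i j) → ∀ j, d j ∈ P)
    (c : ∀ i, Fin (e i) → J i → R)
    (h : ∀ k, OrdGe (w k) (e k) (∑ i, ∑ a, ∑ j, φ (c i a j) * (t i ^ (a : ℕ) * z i j))) :
    ∀ i a j, c i a j ∈ P := by
  classical
  intro i
  set S : Fin (e i) → F := fun a => ∑ j, φ (c i a j) * z i j with hS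
  have hS0 : ∀ a, OrdGe (w i) 0 (S a) := fun a =>
    OrdGe.sum fun j _ => by simpa using (hR i _).mul (hz i j)
  have hpow : ∀ (k : ι) (a : ℕ), OrdGe (w k) 0 (t i ^ a) := by
    intro k a
    have h1 : OrdGe (w k) 0 (t i) := by
      rcases eq_or_ne k i with rfl | hki
      · exact ordGe_of_le_ord (by rw [(ht k).2]; omega)
      · exact ht' i k hki
    exact mem_iff_ordGe_zero.1 (pow_mem (mem_iff_ordGe_zero.2 h1) a)
  have hsum : OrdGe (w i) (e i) (∑ a : Fin (e i), t i ^ (a : ℕ) * S a) := by
    have hrest : OrdGe (w i) (e i) (∑ k ∈ Finset.univ.erase i,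
        ∑ a, ∑ j, φ (c k a j) * (t k ^ (a : ℕ) * z k j)) := by
      refine OrdGe.sum fun k hk => OrdGe.sum fun a _ => OrdGe.sum fun j _ => ?_
      have hik : i ≠ k := (Finset.ne_of_mem_erase hk).symm
      have h1 : OrdGe (w i) 0 (t k ^ (a : ℕ)) :=
        mem_iff_ordGe_zero.1 (pow_mem (mem_iff_ordGe_zero.2 (ht' k i hik)) _)
      simpa using (hR i (c k a j)).mul (h1.mul (hz' k j i hik))
    have h2 := (h i).sub hrest
    rw [← Finset.add_sum_erase _ _ (Finset.mem_univ i), add_sub_cancel_right] at h2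
    simpa [hS, Finset.mul_sum, mul_left_comm] using h2
  suffices ∀ n : ℕ, ∀ a : Fin (e i), (a : ℕ) = n → ∀ j, c i a j ∈ P from
    fun a j => this a a rfl j
  intro n
  induction n using Nat.strong_induction_on with
  | _ n IH =>
  intro a ha
  have hother : OrdGe (w i) ((n : ℤ) + 1) (∑ b ∈ Finset.univ.erase a, t i ^ (b : ℕ) * S b) := by
    refine OrdGe.sum fun b hb => ?_
    have hba : (b : ℕ) ≠ n := fun hbn =>
      Finset.ne_of_mem_erase hb (Fin.ext (hbn.trans ha.symm))
    rcases lt_or_gt_of_ne hba with hlt | hgt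
    · have hSb : OrdGe (w i) (e i) (S b) := OrdGe.sum fun j _ => by
        simpa using (hP i _ (IH b hlt b rfl j)).mul (hz i j)
      refine ((hpow i b).mul hSb).mono ?_
      have := a.2
      omega
    · have hb' : OrdGe (w i) (b : ℕ) (t i ^ (b : ℕ)) :=
        ordGe_of_le_ord (by rw [ord_pow, (ht i).2]; simp)
      exact (hb'.mul (hS0 b)).mono (by omega)
  have hmain : OrdGe (w i) ((n : ℤ) + 1) (t i ^ n * S a) := by
    have hall := hsum.mono (m := (n : ℤ) + 1) (by have := a.2; omega)
    have h2 := hall.sub hother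
    rw [← Finset.add_sum_erase _ _ (Finset.mem_univ a), add_sub_cancel_right, ha] at h2
    exact h2
  refine hind i (c i a) ?_
  show OrdGe (w i) 1 (S a)
  rcases eq_or_ne (S a) 0 with h0 | h0
  · simp [h0]
  have h3 := hmain.le_ord (mul_ne_zero (pow_ne_zero _ (ht i).1) h0)
  rw [(w i).ord_mul (pow_ne_zero _ (ht i).1) h0, ord_pow, (ht i).2] at h3
  exact ordGe_of_le_ord (by omega)

/-- Linear independence over `K⟮x⟯` can be tested with polynomial coefficients. -/
theorem linearIndependent_adjoin_of_polynomial {x : F} {ι : Type*} {u : ι → F}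
    (h : ∀ (s : Finset ι) (p : ι → K[X]),
      ∑ i ∈ s, aeval x (p i) * u i = 0 → ∀ i ∈ s, p i = 0) :
    LinearIndependent K⟮x⟯ u := by
  classical
  rw [linearIndependent_iff']
  intro s g hg i hi
  have hrep : ∀ i, ∃ r q : K[X], aeval x q ≠ 0 ∧ (g i : F) = aeval x r / aeval x q := by
    intro i
    obtain ⟨r, q, hrq⟩ := (mem_adjoin_simple_iff K _).1 (g i).2
    by_cases hq : aeval x q = 0
    · exact ⟨0, 1, by simp, by simp [hrq, hq]⟩
    · exact ⟨r, q, hq, hrq⟩
  choose r q hq hgr using hrep
  have hp := h s (fun i => r i * ∏ j ∈ s.erase i, q j) ?_ i hi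
  · rcases mul_eq_zero.1 hp with h0 | h0
    · apply Subtype.ext
      simp [hgr i, h0]
    · obtain ⟨j, -, hj⟩ := Finset.prod_eq_zero_iff.1 h0
      exact absurd (by simp [hj]) (hq j)
  · have h1 : ∀ j ∈ s, aeval x (r j * ∏ k ∈ s.erase j, q k) * u j
        = aeval x (∏ k ∈ s, q k) * (g j • u j) := by
      intro j hj
      have hu : g j • u j = (g j : F) * u j := rfl
      rw [hu, hgr j, ← Finset.mul_prod_erase s q hj, map_mul, map_mul]
      field_simp [hq j]
    rw [Finset.sum_congr rfl h1, ← Finset.mul_sum, hg, mul_zero]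

end FLTAgent.FunctionField
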