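import Fermat.Agent.FunctionField.Extension
import Mathlib.RingTheory.Norm.Basic

/-!
# The integral basis above a place and the norm formula for push-forward of divisors
-/

set_option autoImplicit false

noncomputable section

open AlgebraicCurve

namespace FLTAgent.FunctionField

variable {K F F' : Type*} [Field K] [Field F] [Field F'] [Algebra K F] [Algebra K F']
  [Algebra F F'] [IsScalarTower K F F']

theorem ordGe_prod {E : Type*} [Field E] [Algebra K E] {u : Place K E} {ι : Type*} (s : Finset ι)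
    (n : ι → ℤ) (f : ι → E) (h : ∀ i ∈ s, OrdGe u (n i) (f i)) :
    OrdGe u (∑ i ∈ s, n i) (∏ i ∈ s, f i) := by
  classical
  induction s using Finset.induction with
  | empty => simpa using ordGe_of_le_ord (v := u) (f := (1 : E)) (n := 0) (by simp)
  | insert a s ha ih =>
    rw [Finset.prod_insert ha, Finset.sum_insert ha]
    exact (h a (Finset.mem_insert_self a s)).mul
      (ih fun i hi => h i (Finset.mem_insert_of_mem hi))

theorem ordGe_det {E : Type*} [Field E] [Algebra K E] {u : Place K E} {m : Type*} [Fintype m]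
    [DecidableEq m] (M : Matrix m m E) (n : m → ℤ) (h : ∀ i j, OrdGe u (n i) (M i j)) :
    OrdGe u (∑ i, n i) M.det := by
  rw [Matrix.det_apply]
  refine OrdGe.sum fun σ _ => ?_
  have hp : OrdGe u (∑ i, n i) (∏ i, M (σ i) i) := by
    rw [← Equiv.sum_comp σ n]
    exact ordGe_prod _ _ _ fun i _ => h (σ i) i
  rcases Int.units_eq_one_or (Equiv.Perm.sign σ) with hs | hs <;> rw [hs]
  · simpa using hp
  · simpa using hp.neg

section

variable [FiniteDimensional F F']

theorem norm_inv_eq (y : F') : Algebra.norm F y⁻¹ = (Algebra.norm F y)⁻¹ := by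
  rcases eq_or_ne y 0 with rfl | hy
  · simp [Algebra.norm_zero]
  · refine eq_inv_of_mul_eq_one_left ?_
    rw [← map_mul, inv_mul_cancel₀ hy, map_one]

theorem norm_zpow_eq (y : F') (n : ℤ) : Algebra.norm F (y ^ n) = Algebra.norm F y ^ n := by
  rcases n with n | n
  · simp
  · rw [zpow_negSucc, zpow_negSucc, norm_inv_eq, map_pow]

end

variable [IsFunctionField K F] [IsFunctionField K F'] [FiniteDimensional F F']
variable {v : Place K F} (A : Adapted (F' := F') v)

theorem nonempty_adaptedIndex (v : Place K F) : Nonempty (AdaptedIndex (F' := F') v) :=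
  Fintype.card_pos_iff.1 (by
    rw [card_adaptedIndex, sum_ramificationIndex_mul_inertiaDeg_eq]
    exact Module.finrank_pos)

/-- The adapted family as a basis. -/
def Adapted.basis : Module.Basis (AdaptedIndex (F' := F') v) F F' :=
  haveI := nonempty_adaptedIndex (F' := F') v
  basisOfLinearIndependentOfCardEqFinrank A.linearIndependent
    (by rw [card_adaptedIndex, sum_ramificationIndex_mul_inertiaDeg_eq])

theorem Adapted.basis_apply (b : AdaptedIndex (F' := F') v) : A.basis b = A.elem b := by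
  have := nonempty_adaptedIndex (F' := F') v
  rw [Adapted.basis, coe_basisOfLinearIndependentOfCardEqFinrank]

omit [IsFunctionField K F] in
theorem Adapted.ordGe_t (w k : {w : Place K F' // w ∈ v.fiber F'}) : OrdGe k.1 0 (A.t w) := by
  rcases eq_or_ne k w with rfl | hk
  · exact ordGe_of_le_ord (by rw [A.ord_t_self]; omega)
  · exact ordGe_of_le_ord (by rw [A.ord_t_of_ne w k hk])

omit [IsFunctionField K F] in
theorem Adapted.ordGe_elem (b : AdaptedIndex (F' := F') v)
    (k : {w : Place K F' // w ∈ v.fiber F'}) : OrdGe k.1 0 (A.elem b) := by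
  have h1 : OrdGe k.1 0 (A.t b.1 ^ (b.2.1 : ℕ)) :=
    mem_iff_ordGe_zero.1 (pow_mem (mem_iff_ordGe_zero.2 (A.ordGe_t b.1 k)) _)
  have h2 : OrdGe k.1 0 (A.z b.1 b.2.2) := by
    rcases eq_or_ne k b.1 with hk | hk
    · rw [hk]; exact A.ordGe_z _ _
    · exact (A.ordGe_z_of_ne _ _ k hk).mono (by omega)
  simpa [Adapted.elem] using h1.mul h2

theorem Adapted.sum_repr (y : F') :
    ∑ b, algebraMap F F' (A.basis.repr y b) * A.elem b = y := by
  conv_rhs => rw [← A.basis.sum_repr y]
  simp only [Algebra.smul_def, A.basis_apply]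

/-- Elements integral above `v` have integral coordinates. -/
theorem Adapted.ordGe_repr {y : F'} (hy : ∀ k : {w : Place K F' // w ∈ v.fiber F'}, OrdGe k.1 0 y)
    (b : AdaptedIndex (F' := F') v) : OrdGe v 0 (A.basis.repr y b) := by
  classical
  set c := fun b => A.basis.repr y b
  by_contra hb
  have hb0 : c b ≠ 0 := fun h => hb (by simp only [c] at h; rw [h]; exact ordGe_zero _)
  obtain ⟨b0, hb0', hmin⟩ := Finset.exists_min_image (Finset.univ.filter fun b => c b ≠ 0)
    (fun b => v.ord (c b)) ⟨b, by simp [hb0]⟩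
  have hb0'' : c b0 ≠ 0 := (Finset.mem_filter.1 hb0').2
  have hneg : v.ord (c b0) < 0 := lt_of_le_of_lt (hmin b (by simp [hb0])) (by
    by_contra h
    exact hb (ordGe_of_le_ord (not_lt.1 h)))
  have := A.coeff_mem (fun b => c b / c b0) (fun b => ?_) (fun k => ?_) b0
  · rw [div_self hb0''] at this
    have h := this.le_ord one_ne_zero
    simp at h
  · rcases eq_or_ne (c b) 0 with h0 | h0
    · simp [h0]
    · refine ordGe_of_le_ord ?_
      rw [ord_div h0 hb0'']
      have := hmin b (by simp [h0])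
      omega
  · have : ∑ b, algebraMap F F' (c b / c b0) * A.elem b = algebraMap F F' (c b0)⁻¹ * y := by
      conv_rhs => rw [← A.sum_repr y, Finset.mul_sum]
      refine Finset.sum_congr rfl fun b _ => ?_
      rw [div_eq_inv_mul, map_mul, mul_assoc]
    rw [this]
    have h1 : OrdGe k.1 ((k.1.ramificationIndex F : ℤ) * (1 : ℕ)) (algebraMap F F' (c b0)⁻¹) :=
      ordGe_map (Place.mem_fiber.1 k.2)
        (ordGe_of_le_ord (by rw [v.ord_inv]; push_cast; omega))
    simpa using h1.mul (hy k)

/-- If moreover `y` vanishes at `w`, its residue coordinates at `w` vanish modulo `v`. -/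
theorem Adapted.ordGe_one_repr {y : F'}
    (hy : ∀ k : {w : Place K F' // w ∈ v.fiber F'}, OrdGe k.1 0 y)
    {w : {w : Place K F' // w ∈ v.fiber F'}} (hw : OrdGe w.1 1 y)
    (j : Fin (w.1.inertiaDeg F)) :
    OrdGe v 1 (A.basis.repr y ⟨w, ⟨0, w.1.ramificationIndex_pos⟩, j⟩) := by
  classical
  set a0 : Fin (w.1.ramificationIndex F) := ⟨0, w.1.ramificationIndex_pos⟩
  set T : Finset (AdaptedIndex (F' := F') v) := Finset.univ.image fun j => ⟨w, a0, j⟩ with hT
  have hrest : OrdGe w.1 1 (∑ b ∈ Finset.univ \ T, algebraMap F F' (A.basis.repr y b) * A.elem b) := by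
    refine OrdGe.sum fun b hb => ?_
    have hc : OrdGe w.1 0 (algebraMap F F' (A.basis.repr y b)) := by
      simpa using ordGe_map (Place.mem_fiber.1 w.2) (n := 0) (by simpa using A.ordGe_repr hy b)
    suffices OrdGe w.1 1 (A.elem b) by simpa using hc.mul this
    obtain ⟨w', a, j'⟩ := b
    rcases eq_or_ne w w' with rfl | hne
    · have ha : 0 < (a : ℕ) := by
        by_contra h0
        have : a = a0 := Fin.ext (by simp [a0]; omega)
        subst this
        simp [hT] at hb
      have h1 : OrdGe w.1 1 (A.t w ^ (a : ℕ)) := ordGe_of_le_ord (by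
        rw [ord_pow, A.ord_t_self]; omega)
      simpa [Adapted.elem] using h1.mul (A.ordGe_z w j')
    · have h1 : OrdGe w.1 0 (A.t w' ^ (a : ℕ)) :=
        mem_iff_ordGe_zero.1 (pow_mem (mem_iff_ordGe_zero.2 (A.ordGe_t w' w)) _)
      exact (h1.mul (A.ordGe_z_of_ne w' j' w hne)).mono (by
        have := w.1.ramificationIndex_pos (F := F)
        omega)
  have hsum := hw
  rw [← A.sum_repr y, ← Finset.sum_sdiff (Finset.subset_univ T)] at hsum
  have h2 := hsum.sub hrest
  rw [add_sub_cancel_left, hT,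
    Finset.sum_image (fun a _ b _ hab => by simpa using hab)] at h2
  have h3 := A.z_indep w
    (fun j => ⟨A.basis.repr y ⟨w, a0, j⟩, mem_iff_ordGe_zero.2 (A.ordGe_repr hy _)⟩)
    (by simpa [Adapted.elem, a0] using h2) j
  exact h3

include A

theorem Adapted.ordGe_norm {y : F'}
    (hy : ∀ k : {w : Place K F' // w ∈ v.fiber F'}, OrdGe k.1 0 y) :
    OrdGe v 0 (Algebra.norm F y) := by
  classical
  rw [Algebra.norm_eq_matrix_det A.basis]
  simpa using ordGe_det (u := v) (Algebra.leftMulMatrix A.basis y) (fun _ => 0) fun i j => by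
    rw [Algebra.leftMulMatrix_eq_repr_mul]
    refine A.ordGe_repr (fun k => ?_) i
    rw [A.basis_apply]
    simpa using (hy k).mul (A.ordGe_elem j k)

theorem Adapted.ord_norm_eq_zero {y : F'} (hy0 : y ≠ 0)
    (hy : ∀ k : {w : Place K F' // w ∈ v.fiber F'}, k.1.ord y = 0) :
    v.ord (Algebra.norm F y) = 0 := by
  have hn0 : Algebra.norm F y ≠ 0 := Algebra.norm_ne_zero_iff.2 hy0
  have h1 := (A.ordGe_norm (y := y) fun k => ordGe_of_le_ord (by rw [hy k])).le_ord hn0
  have h2 := (A.ordGe_norm (y := y⁻¹) fun k => ordGe_of_le_ord (by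
    rw [k.1.ord_inv, hy k, neg_zero])).le_ord (Algebra.norm_ne_zero_iff.2 (inv_ne_zero hy0))
  rw [norm_inv_eq, v.ord_inv] at h2
  omega

theorem Adapted.inertiaDeg_le_ord_norm (w : {w : Place K F' // w ∈ v.fiber F'}) :
    (w.1.inertiaDeg F : ℤ) ≤ v.ord (Algebra.norm F (A.t w)) := by
  classical
  set a0 : Fin (w.1.ramificationIndex F) := ⟨0, w.1.ramificationIndex_pos⟩
  set T : Finset (AdaptedIndex (F' := F') v) := Finset.univ.image fun j => ⟨w, a0, j⟩ with hT
  have h := ordGe_det (u := v) (Algebra.leftMulMatrix A.basis (A.t w))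
    (fun b => if b ∈ T then 1 else 0) fun i j => by
      rw [Algebra.leftMulMatrix_eq_repr_mul, A.basis_apply]
      have hint : ∀ k : {w : Place K F' // w ∈ v.fiber F'}, OrdGe k.1 0 (A.t w * A.elem j) :=
        fun k => by simpa using (A.ordGe_t w k).mul (A.ordGe_elem j k)
      split_ifs with hi
      · obtain ⟨j', -, rfl⟩ := Finset.mem_image.1 hi
        refine A.ordGe_one_repr hint ?_ j'
        simpa using (ordGe_of_le_ord (v := w.1) (f := A.t w) (n := 1)
          (by rw [A.ord_t_self])).mul (A.ordGe_elem j w)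
      · exact A.ordGe_repr hint i
  have hcard : ∑ b, (if b ∈ T then (1 : ℤ) else 0) = w.1.inertiaDeg F := by
    rw [Finset.sum_ite_mem, Finset.univ_inter, Finset.sum_const, hT,
      Finset.card_image_of_injective _ (fun a b hab => by simpa using hab)]
    simp
  rw [hcard, ← Algebra.norm_eq_matrix_det] at h
  exact h.le_ord (Algebra.norm_ne_zero_iff.2 (A.t_ne_zero w))

theorem Adapted.ord_norm_eq_sum {f : F'} (hf : f ≠ 0) :
    v.ord (Algebra.norm F f)
      = ∑ w : {w : Place K F' // w ∈ v.fiber F'}, w.1.ord f * v.ord (Algebra.norm F (A.t w)) := by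
  classical
  set g : F' := ∏ w : {w : Place K F' // w ∈ v.fiber F'}, A.t w ^ w.1.ord f with hg
  have hg0 : g ≠ 0 := Finset.prod_ne_zero_iff.2 fun w _ => zpow_ne_zero _ (A.t_ne_zero w)
  have hordg : ∀ k : {w : Place K F' // w ∈ v.fiber F'}, k.1.ord g = k.1.ord f := by
    intro k
    rw [hg, ord_prod _ _ (fun w _ => zpow_ne_zero _ (A.t_ne_zero w)),
      Finset.sum_eq_single k]
    · rw [k.1.ord_zpow, A.ord_t_self, mul_one]
    · intro w _ hw
      rw [k.1.ord_zpow, A.ord_t_of_ne w k hw.symm, mul_zero]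
    · simp
  have hu : f / g ≠ 0 := div_ne_zero hf hg0
  have h0 := A.ord_norm_eq_zero hu fun k => by rw [ord_div hf hg0, hordg, sub_self]
  rw [div_eq_mul_inv f g, map_mul, norm_inv_eq, ← div_eq_mul_inv,
    ord_div (Algebra.norm_ne_zero_iff.2 hf) (Algebra.norm_ne_zero_iff.2 hg0),
    sub_eq_zero] at h0
  rw [h0, hg, map_prod, ord_prod]
  · exact Finset.sum_congr rfl fun w _ => by rw [norm_zpow_eq, v.ord_zpow]
  · intro w _
    rw [norm_zpow_eq]
    exact zpow_ne_zero _ (Algebra.norm_ne_zero_iff.2 (A.t_ne_zero w))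

theorem Adapted.ord_norm_t (w : {w : Place K F' // w ∈ v.fiber F'}) :
    v.ord (Algebra.norm F (A.t w)) = w.1.inertiaDeg F := by
  classical
  obtain ⟨t, ht, hvt⟩ := exists_ord_eq v 1
  have h1 := A.ord_norm_eq_sum (f := algebraMap F F' t) (by simpa using ht)
  rw [Algebra.norm_algebraMap, ord_pow, hvt, mul_one] at h1
  have hn : (Module.finrank F F' : ℤ) = ∑ w : {w : Place K F' // w ∈ v.fiber F'},
      (w.1.ramificationIndex F : ℤ) * (w.1.inertiaDeg F : ℤ) := by
    rw [← sum_ramificationIndex_mul_inertiaDeg_eq (F' := F') v, Nat.cast_sum,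
      Finset.sum_coe_sort (v.fiber F')
        (fun w => (w.ramificationIndex F : ℤ) * (w.inertiaDeg F : ℤ))]
    simp
  have he : ∀ k : {w : Place K F' // w ∈ v.fiber F'},
      k.1.ord (algebraMap F F' t) = k.1.ramificationIndex F := fun k => by
    rw [ord_map (Place.mem_fiber.1 k.2), hvt, mul_one]
  simp only [he] at h1
  refine le_antisymm ?_ (A.inertiaDeg_le_ord_norm w)
  by_contra hlt
  refine absurd (hn.symm.trans h1) (ne_of_lt (Finset.sum_lt_sum (fun k _ =>
    mul_le_mul_of_nonneg_left (A.inertiaDeg_le_ord_norm k) (Int.natCast_nonneg _))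
    ⟨w, Finset.mem_univ w, ?_⟩))
  exact mul_lt_mul_of_pos_left (not_le.1 hlt) (by exact_mod_cast w.1.ramificationIndex_pos)

omit A

theorem ord_norm (v : Place K F) {f : F'} (hf : f ≠ 0) :
    v.ord (Algebra.norm F f) = ∑ w ∈ v.fiber F', w.ord f * (w.inertiaDeg F : ℤ) := by
  obtain ⟨A⟩ := exists_adapted (F' := F') v
  rw [A.ord_norm_eq_sum hf, ← Finset.sum_coe_sort (v.fiber F')]
  simp only [A.ord_norm_t]

theorem pushforwardNormFormula : Divisor.PushforwardNormFormula K F F' := by
  classical
  intro f hf D hD v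
  rw [ord_norm v hf, Divisor.pushforward_apply, ← Finset.sum_filter]
  refine Finset.sum_congr_of_eq_on_inter ?_ ?_ ?_
  · intro w hw hw'
    exact absurd (Place.mem_fiber.2 (Finset.mem_filter.1 hw).2) hw'
  · intro w hw hw'
    have : D w = 0 := Finsupp.notMem_support_iff.1 fun h =>
      hw' (Finset.mem_filter.2 ⟨h, Place.mem_fiber.1 hw⟩)
    rw [← hD, this, zero_mul]
  · intro w _ _
    rw [hD]

section Along

variable {F₁ : Type*} [Field F₁] [Algebra K F₁] [IsFunctionField K F₁]

theorem fundamentalIdentityAlong (φ : F →ₐ[K] F₁) (hφ : φ.toRingHom.IsIntegral) :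
    FundamentalIdentityAlong K φ hφ := by
  unfold FundamentalIdentityAlong
  let := algebraAlong φ
  have := isScalarTower_along φ
  have : Module.Finite F F₁ := finiteAlong_of_isFunctionField φ
  infer_instance

theorem normFormulaAlong (φ : F →ₐ[K] F₁) (hfin : FiniteAlong K φ) :
    NormFormulaAlong K φ hfin := by
  unfold NormFormulaAlong
  let := algebraAlong φ
  have := isScalarTower_along φ
  have : Module.Finite F F₁ := hfin
  exact pushforwardNormFormula

theorem sum_fiberAlong_ramificationIndex [IsAlgClosed K] (φ : F →ₐ[K] F₁)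
    (hφ : φ.toRingHom.IsIntegral) (v : Place K F) :
    ∑ w ∈ Place.fiberAlong φ hφ v, w.ramificationIndexAlong φ = finrankAlong K φ := by
  let := algebraAlong φ
  have := isScalarTower_along φ
  have : Module.Finite F F₁ := finiteAlong_of_isFunctionField φ
  exact sum_ramificationIndex_eq_finrank v

theorem exists_restrictAlong_eq (φ : F →ₐ[K] F₁) (hφ : φ.toRingHom.IsIntegral) (v : Place K F) :
    ∃ w : Place K F₁, w.restrictAlong φ hφ = v := by
  let := algebraAlong φ
  have := isScalarTower_along φ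
  have : Module.Finite F F₁ := finiteAlong_of_isFunctionField φ
  exact exists_restrict_eq v

end Along

end FLTAgent.FunctionField
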